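/-
P-SS2 row 993 (SS2-A9 DK-INSEP), helper46: the ALGEBRAIC core (Mathlib only).

`O` a valuation subring of `K` (local, integrally closed), `L / K` a field extension, `z : L` a
root of a monic `P₀ ∈ O[T]` whose reduction modulo the maximal ideal is IRREDUCIBLE over the
residue field.  Then in `B = O[z]`:
* `dk_isUnit_aeval` : `Q(z)` is a unit of `B` as soon as `P̄₀ ∤ Q̄`;
* `dk_exists_of_dvd` : otherwise `Q(z) = G(z)` with all coefficients of `G` in the maximal ideal;
* `dk_not_isUnit_of_mem_jacobson` : and such elements are not units.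
-/
import Mathlib

set_option autoImplicit false
set_option linter.unusedSectionVars false

open Polynomial

namespace Fermat.Agent.H46.SS2

section DKCore

variable {K L : Type*} [Field K] [Field L] [Algebra K L] (O : ValuationSubring K) (z : L)

/-- the generator `z` as an element of `O[z]` -/
def dkGen : ↥(Algebra.adjoin O ({z} : Set L)) := ⟨z, Algebra.subset_adjoin rfl⟩

@[simp] theorem dkGen_coe : ((dkGen O z : ↥(Algebra.adjoin O ({z} : Set L))) : L) = z := rfl

theorem dk_coe_aeval (Q : O[X]) :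
    ((aeval (dkGen O z) Q : ↥(Algebra.adjoin O ({z} : Set L))) : L) = aeval z Q := by
  rw [aeval_subalgebra_coe, dkGen_coe]

theorem dk_exists_aeval (b : ↥(Algebra.adjoin O ({z} : Set L))) :
    ∃ Q : O[X], aeval (dkGen O z) Q = b := by
  have hb : ∀ l : L, l ∈ Algebra.adjoin O ({z} : Set L) →
      l ∈ (aeval z : O[X] →ₐ[O] L).range := by
    intro l hl
    rwa [Algebra.adjoin_singleton_eq_range_aeval] at hl
  obtain ⟨Q, hQ⟩ := hb _ b.2
  exact ⟨Q, Subtype.ext (by rw [dk_coe_aeval]; exact hQ)⟩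

theorem dk_algebraMap_mem_jacobson (hz : IsIntegral O z) (c : O)
    (hc : c ∈ IsLocalRing.maximalIdeal O) :
    algebraMap O ↥(Algebra.adjoin O ({z} : Set L)) c
      ∈ (⊥ : Ideal ↥(Algebra.adjoin O ({z} : Set L))).jacobson := by
  have : Algebra.IsIntegral O ↥(Algebra.adjoin O ({z} : Set L)) :=
    Algebra.IsIntegral.adjoin (fun x hx => by
      rw [Set.mem_singleton_iff] at hx
      rw [hx]
      exact hz)
  rw [Ideal.jacobson, Submodule.mem_sInf]
  rintro J ⟨-, hJ⟩
  have := hJ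
  have hmax := Ideal.isMaximal_comap_of_isIntegral_of_isMaximal (R := O) J
  have h1 := IsLocalRing.eq_maximalIdeal hmax
  have hc' : c ∈ Ideal.comap (algebraMap O ↥(Algebra.adjoin O ({z} : Set L))) J := by
    rw [h1]
    exact hc
  exact hc'

theorem dk_aeval_mem_jacobson (hz : IsIntegral O z) (G : O[X])
    (hG : ∀ i, G.coeff i ∈ IsLocalRing.maximalIdeal O) :
    aeval (dkGen O z) G ∈ (⊥ : Ideal ↥(Algebra.adjoin O ({z} : Set L))).jacobson := by
  rw [aeval_eq_sum_range]
  refine Ideal.sum_mem _ fun i _ => ?_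
  rw [Algebra.smul_def]
  exact Ideal.mul_mem_right _ _ (dk_algebraMap_mem_jacobson O z hz _ (hG i))

theorem dk_not_isUnit_of_mem_jacobson (b : ↥(Algebra.adjoin O ({z} : Set L)))
    (hb : b ∈ (⊥ : Ideal ↥(Algebra.adjoin O ({z} : Set L))).jacobson) : ¬ IsUnit b := by
  intro hu
  have h1 : (⊥ : Ideal ↥(Algebra.adjoin O ({z} : Set L))).jacobson = ⊤ :=
    Ideal.eq_top_of_isUnit_mem _ hb hu
  rw [Ideal.jacobson_eq_top_iff] at h1
  exact bot_ne_top h1

theorem dk_coeff_mem_of_map_eq_zero (G : O[X]) (hG : G.map (IsLocalRing.residue O) = 0) (i : ℕ) :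
    G.coeff i ∈ IsLocalRing.maximalIdeal O := by
  have h := congrArg (fun q => q.coeff i) hG
  simp only [coeff_map, coeff_zero] at h
  exact (IsLocalRing.residue_eq_zero_iff _).mp h

theorem dk_map_eq_zero_of_coeff_mem (G : O[X]) (hG : ∀ i, G.coeff i ∈ IsLocalRing.maximalIdeal O) :
    G.map (IsLocalRing.residue O) = 0 := by
  ext i
  rw [coeff_map, coeff_zero]
  exact (IsLocalRing.residue_eq_zero_iff _).mpr (hG i)

/-- **Unit lemma**: `Q(z)` is a unit of `O[z]` when the reduction of `Q` is prime to the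
(irreducible) reduction of `P₀`. -/
theorem dk_isUnit_aeval (hz : IsIntegral O z) (P₀ : O[X]) (hP₀ : aeval z P₀ = 0)
    (hirr : Irreducible (P₀.map (IsLocalRing.residue O)))
    (Q : O[X]) (hQ : ¬ P₀.map (IsLocalRing.residue O) ∣ Q.map (IsLocalRing.residue O)) :
    IsUnit (aeval (dkGen O z) Q) := by
  have hcop : IsCoprime (P₀.map (IsLocalRing.residue O)) (Q.map (IsLocalRing.residue O)) :=
    hirr.coprime_iff_not_dvd.mpr hQ
  obtain ⟨A', R', h⟩ := hcop
  obtain ⟨A, rfl⟩ := map_surjective (IsLocalRing.residue O) IsLocalRing.residue_surjective A'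
  obtain ⟨R, rfl⟩ := map_surjective (IsLocalRing.residue O) IsLocalRing.residue_surjective R'
  have hG : (A * P₀ + R * Q - 1).map (IsLocalRing.residue O) = 0 := by
    rw [Polynomial.map_sub, Polynomial.map_add, Polynomial.map_mul, Polynomial.map_mul,
      Polynomial.map_one, h, sub_self]
  have hjac := dk_aeval_mem_jacobson O z hz _ (dk_coeff_mem_of_map_eq_zero O _ hG)
  have hP₀' : aeval (dkGen O z) P₀ = 0 := Subtype.ext (by rw [dk_coe_aeval]; exact hP₀)
  have h1 := Ideal.mem_jacobson_bot.mp hjac 1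
  have h2 : aeval (dkGen O z) (A * P₀ + R * Q - 1) * 1 + 1
      = aeval (dkGen O z) R * aeval (dkGen O z) Q := by
    rw [map_sub, map_add, map_mul, map_mul, map_one, hP₀']
    ring
  rw [h2] at h1
  exact isUnit_of_mul_isUnit_right h1

/-- If the reduction of `P₀` divides that of `Q`, then `Q = P₀ S + G` with `G ≡ 0`. -/
theorem dk_exists_of_dvd (P₀ Q : O[X])
    (hdvd : P₀.map (IsLocalRing.residue O) ∣ Q.map (IsLocalRing.residue O)) :
    ∃ S G : O[X], Q = P₀ * S + G ∧ ∀ i, G.coeff i ∈ IsLocalRing.maximalIdeal O := by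
  obtain ⟨S', hS⟩ := hdvd
  obtain ⟨S, rfl⟩ := map_surjective (IsLocalRing.residue O) IsLocalRing.residue_surjective S'
  refine ⟨S, Q - P₀ * S, by ring, ?_⟩
  apply dk_coeff_mem_of_map_eq_zero
  rw [Polynomial.map_sub, Polynomial.map_mul, hS, sub_self]

/-- Dichotomy in `O[z]`: every element is a unit or is `G(z)` with `G ≡ 0`. -/
theorem dk_dichotomy (hz : IsIntegral O z) (P₀ : O[X]) (hP₀ : aeval z P₀ = 0)
    (hirr : Irreducible (P₀.map (IsLocalRing.residue O)))
    (b : ↥(Algebra.adjoin O ({z} : Set L))) :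
    IsUnit b ∨ ∃ G : O[X], (∀ i, G.coeff i ∈ IsLocalRing.maximalIdeal O) ∧
      aeval (dkGen O z) G = b := by
  obtain ⟨Q, rfl⟩ := dk_exists_aeval O z b
  by_cases hQ : P₀.map (IsLocalRing.residue O) ∣ Q.map (IsLocalRing.residue O)
  · right
    obtain ⟨S, G, hQG, hG⟩ := dk_exists_of_dvd O P₀ Q hQ
    refine ⟨G, hG, ?_⟩
    have hP₀' : aeval (dkGen O z) P₀ = 0 := Subtype.ext (by rw [dk_coe_aeval]; exact hP₀)
    rw [hQG, map_add, map_mul, hP₀', zero_mul, zero_add]
  · left
    exact dk_isUnit_aeval O z hz P₀ hP₀ hirr Q hQ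

end DKCore

end Fermat.Agent.H46.SS2
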