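/-
P-SS2 row 978 (SS2-C5a NORMPLACE), helper46: the VALUATION-THEORETIC core (Mathlib only).

`S` a noetherian domain with fraction field `E`, `z : S` with `z S ≠ S`.  Every nonzero element of
`E` is `z ^ k₁ a / (z ^ k₂ b)` with `a, b ∈ S ∖ z S` (Krull intersection).  A valuation ring `P`
of `E` containing `S` with `P.nonunits ∩ S = z S` is therefore `{e | k₂ ≤ k₁} ∪ {0}`:
* `placeCore_mem_iff`, `placeCore_unique` : `P` is unique;
* `placeCore_residue` : if moreover `S = R₀ + z S` for a subring `R₀` whose elements outside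
  `z S` are invertible in `R₀`, then `P = R₀ + P.nonunits`.
-/
import Mathlib

set_option autoImplicit false
set_option linter.unusedSectionVars false

namespace Fermat.Agent.H46.SS2

section nonunits

variable {K : Type*} [Field K] (A : ValuationSubring K)

theorem zero_mem_nonunits : (0 : K) ∈ A.nonunits := by
  rw [ValuationSubring.mem_nonunits_iff, map_zero]
  exact zero_lt_one

theorem mem_nonunits_iff_inv_not_mem {x : K} (hx : x ≠ 0) : x ∈ A.nonunits ↔ x⁻¹ ∉ A := by
  rw [ValuationSubring.mem_nonunits_iff, ← ValuationSubring.valuation_le_one_iff, map_inv₀,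
    not_le]
  have h0 : 0 < A.valuation x := zero_lt_iff.mpr ((Valuation.ne_zero_iff _).mpr hx)
  exact (one_lt_inv₀ h0).symm

theorem mem_nonunits_comap {L : Type*} [Field L] (P : ValuationSubring L) (f : K →+* L) (x : K) :
    x ∈ (P.comap f).nonunits ↔ f x ∈ P.nonunits := by
  by_cases hx : x = 0
  · subst hx
    rw [map_zero]
    exact ⟨fun _ => zero_mem_nonunits P, fun _ => zero_mem_nonunits _⟩
  · have hfx : f x ≠ 0 := (map_ne_zero f).mpr hx
    rw [mem_nonunits_iff_inv_not_mem _ hx, mem_nonunits_iff_inv_not_mem _ hfx,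
      ValuationSubring.mem_comap, map_inv₀]

theorem mul_mem_nonunits {x y : K} (hx : x ∈ A.nonunits) (hy : y ∈ A) : x * y ∈ A.nonunits := by
  rw [ValuationSubring.mem_nonunits_iff] at hx ⊢
  rw [← ValuationSubring.valuation_le_one_iff] at hy
  rw [map_mul]
  exact mul_lt_one_of_lt_of_le hx hy

theorem sub_mem_nonunits {x y : K} (hx : x ∈ A.nonunits) (hy : y ∈ A.nonunits) :
    x - y ∈ A.nonunits := by
  rw [ValuationSubring.mem_nonunits_iff] at hx hy ⊢
  exact Valuation.map_sub_lt _ hx hy

theorem add_mem_nonunits {x y : K} (hx : x ∈ A.nonunits) (hy : y ∈ A.nonunits) :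
    x + y ∈ A.nonunits := by
  rw [ValuationSubring.mem_nonunits_iff] at hx hy ⊢
  exact Valuation.map_add_lt _ hx hy

theorem valuation_eq_one_of_mem {x : K} (hx : x ∈ A) (hx' : x ∉ A.nonunits) :
    A.valuation x = 1 := by
  rw [ValuationSubring.mem_nonunits_iff, not_lt] at hx'
  exact le_antisymm ((ValuationSubring.valuation_le_one_iff A x).mpr hx) hx'

end nonunits

section core

variable {S E : Type*} [CommRing S] [IsDomain S] [IsNoetherianRing S] [Field E] [Algebra S E]
  [IsFractionRing S E]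

/-- Krull intersection: a nonzero `s` is `z ^ k s'` with `s' ∉ z S`. -/
theorem exists_pow_mul_not_mem (z : S) (hz : Ideal.span {z} ≠ ⊤) (s : S) (hs : s ≠ 0) :
    ∃ (k : ℕ) (s' : S), s = z ^ k * s' ∧ s' ∉ Ideal.span {z} := by
  classical
  have hkrull := Ideal.iInf_pow_eq_bot_of_isDomain (Ideal.span {z}) hz
  have hex : ∃ k : ℕ, s ∉ Ideal.span {z} ^ k := by
    by_contra hcon
    push Not at hcon
    have : s ∈ ⨅ i, Ideal.span {z} ^ i := Ideal.mem_iInf.mpr hcon
    rw [hkrull] at this
    exact hs this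
  have hk := Nat.find_spec hex
  have hk0 : Nat.find hex ≠ 0 := by
    intro h0
    rw [h0, pow_zero, Ideal.one_eq_top] at hk
    exact hk Submodule.mem_top
  obtain ⟨k, hk1⟩ := Nat.exists_eq_succ_of_ne_zero hk0
  have hmem : s ∈ Ideal.span {z} ^ k := by
    by_contra hcon
    have := Nat.find_min' hex hcon
    omega
  rw [Ideal.span_singleton_pow, Ideal.mem_span_singleton'] at hmem
  obtain ⟨s', hs'⟩ := hmem
  refine ⟨k, s', by rw [← hs', mul_comm], fun hin => ?_⟩
  obtain ⟨t, ht⟩ := Ideal.mem_span_singleton'.mp hin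
  apply hk
  rw [hk1, Nat.succ_eq_add_one, Ideal.span_singleton_pow, Ideal.mem_span_singleton']
  exact ⟨t, by rw [← hs', ← ht, pow_succ]; ring⟩

/-- Every nonzero element of `E` is `z ^ k₁ a / (z ^ k₂ b)` with `a, b ∈ S ∖ z S`. -/
theorem exists_decomp (z : S) (hz : Ideal.span {z} ≠ ⊤) (e : E) (he : e ≠ 0) :
    ∃ (k₁ k₂ : ℕ) (a b : S), a ∉ Ideal.span {z} ∧ b ∉ Ideal.span {z} ∧
      e = (algebraMap S E z ^ k₁ * algebraMap S E a)
        / (algebraMap S E z ^ k₂ * algebraMap S E b) := by
  obtain ⟨x, y, hy, hxy⟩ := IsFractionRing.div_surjective S e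
  have hy0 : y ≠ 0 := nonZeroDivisors.ne_zero hy
  have hx0 : x ≠ 0 := by
    intro h0
    rw [h0, map_zero, zero_div] at hxy
    exact he hxy.symm
  obtain ⟨k₁, a, ha, ha'⟩ := exists_pow_mul_not_mem z hz x hx0
  obtain ⟨k₂, b, hb, hb'⟩ := exists_pow_mul_not_mem z hz y hy0
  refine ⟨k₁, k₂, a, b, ha', hb', ?_⟩
  rw [← hxy, ha, hb, map_mul, map_mul, map_pow, map_pow]

variable (P : ValuationSubring E) (z : S)

/-- `P` contains `S` and `P.nonunits ∩ S = z S`. -/
structure IsCentredAt : Prop where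
  mem : ∀ s : S, algebraMap S E s ∈ P
  nonunit : ∀ s : S, algebraMap S E s ∈ P.nonunits → s ∈ Ideal.span {z}
  z_nonunit : algebraMap S E z ∈ P.nonunits

variable {P z}

theorem IsCentredAt.span_ne_top (h : IsCentredAt P z) : Ideal.span {z} ≠ ⊤ := by
  intro htop
  have h1 : (1 : S) ∈ Ideal.span {z} := by rw [htop]; exact Submodule.mem_top
  obtain ⟨t, ht⟩ := Ideal.mem_span_singleton'.mp h1
  have h2 : algebraMap S E z * algebraMap S E t ∈ P.nonunits :=
    mul_mem_nonunits P h.z_nonunit (h.mem t)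
  rw [← map_mul, mul_comm, ht, map_one, ValuationSubring.mem_nonunits_iff, map_one] at h2
  exact lt_irrefl _ h2

theorem IsCentredAt.span_le (h : IsCentredAt P z) (s : S) (hs : s ∈ Ideal.span {z}) :
    algebraMap S E s ∈ P.nonunits := by
  obtain ⟨t, ht⟩ := Ideal.mem_span_singleton'.mp hs
  rw [← ht, mul_comm, map_mul]
  exact mul_mem_nonunits P h.z_nonunit (h.mem t)

theorem IsCentredAt.valuation_eq_one (h : IsCentredAt P z) (a : S) (ha : a ∉ Ideal.span {z}) :
    P.valuation (algebraMap S E a) = 1 :=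
  valuation_eq_one_of_mem P (h.mem a) (fun hn => ha (h.nonunit a hn))

theorem IsCentredAt.valuation_decomp (h : IsCentredAt P z) (k₁ k₂ : ℕ) (a b : S)
    (ha : a ∉ Ideal.span {z}) (hb : b ∉ Ideal.span {z}) :
    P.valuation ((algebraMap S E z ^ k₁ * algebraMap S E a)
        / (algebraMap S E z ^ k₂ * algebraMap S E b))
      = P.valuation (algebraMap S E z) ^ k₁ / P.valuation (algebraMap S E z) ^ k₂ := by
  rw [map_div₀, map_mul, map_mul, map_pow, map_pow, h.valuation_eq_one a ha,
    h.valuation_eq_one b hb, mul_one, mul_one]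

theorem IsCentredAt.mem_iff (h : IsCentredAt P z) (hz0 : z ≠ 0) (k₁ k₂ : ℕ) (a b : S)
    (ha : a ∉ Ideal.span {z}) (hb : b ∉ Ideal.span {z}) :
    (algebraMap S E z ^ k₁ * algebraMap S E a) / (algebraMap S E z ^ k₂ * algebraMap S E b) ∈ P
      ↔ k₂ ≤ k₁ := by
  have hz0' : algebraMap S E z ≠ 0 :=
    (map_ne_zero_iff _ (IsFractionRing.injective S E)).mpr hz0
  have hv0 : 0 < P.valuation (algebraMap S E z) :=
    zero_lt_iff.mpr ((Valuation.ne_zero_iff _).mpr hz0')
  have hv1 : P.valuation (algebraMap S E z) < 1 :=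
    (ValuationSubring.mem_nonunits_iff P).mp h.z_nonunit
  rw [← ValuationSubring.valuation_le_one_iff, h.valuation_decomp k₁ k₂ a b ha hb,
    div_le_one₀ (pow_pos hv0 k₂), pow_le_pow_iff_right_of_lt_one₀ hv0 hv1]

theorem IsCentredAt.mem_nonunits_iff (h : IsCentredAt P z) (hz0 : z ≠ 0) (k₁ k₂ : ℕ) (a b : S)
    (ha : a ∉ Ideal.span {z}) (hb : b ∉ Ideal.span {z}) :
    (algebraMap S E z ^ k₁ * algebraMap S E a) / (algebraMap S E z ^ k₂ * algebraMap S E b)
        ∈ P.nonunits ↔ k₂ < k₁ := by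
  have hz0' : algebraMap S E z ≠ 0 :=
    (map_ne_zero_iff _ (IsFractionRing.injective S E)).mpr hz0
  have hv0 : 0 < P.valuation (algebraMap S E z) :=
    zero_lt_iff.mpr ((Valuation.ne_zero_iff _).mpr hz0')
  have hv1 : P.valuation (algebraMap S E z) < 1 :=
    (ValuationSubring.mem_nonunits_iff P).mp h.z_nonunit
  rw [ValuationSubring.mem_nonunits_iff, h.valuation_decomp k₁ k₂ a b ha hb,
    div_lt_one₀ (pow_pos hv0 k₂), pow_lt_pow_iff_right_of_lt_one₀ hv0 hv1]

/-- **Uniqueness**: a valuation ring of `E` centred at `z S` is unique. -/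
theorem placeCore_unique {P₁ P₂ : ValuationSubring E} {z : S} (hz0 : z ≠ 0)
    (h₁ : IsCentredAt P₁ z) (h₂ : IsCentredAt P₂ z) : P₁ = P₂ := by
  ext e
  by_cases he : e = 0
  · subst he
    exact ⟨fun _ => zero_mem _, fun _ => zero_mem _⟩
  · obtain ⟨k₁, k₂, a, b, ha, hb, rfl⟩ := exists_decomp z h₁.span_ne_top e he
    rw [h₁.mem_iff hz0 k₁ k₂ a b ha hb, h₂.mem_iff hz0 k₁ k₂ a b ha hb]

/-- **Residue degree one**: if `S = R + z S` and the elements of `R` outside `z S` are units
of `R`, then `P = R + P.nonunits`. -/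
theorem placeCore_residue {R : Type*} [CommRing R] [Algebra R S] [Algebra R E]
    [IsScalarTower R S E] {P : ValuationSubring E} {z : S} (hz0 : z ≠ 0) (h : IsCentredAt P z)
    (hstar : ∀ s : S, ∃ d : R, s - algebraMap R S d ∈ Ideal.span {z})
    (hunit : ∀ d : R, algebraMap R S d ∉ Ideal.span {z} → IsUnit d)
    (e : E) (he : e ∈ P) : ∃ d : R, e - algebraMap R E d ∈ P.nonunits := by
  by_cases he0 : e = 0
  · refine ⟨0, ?_⟩
    rw [he0, map_zero, sub_zero]
    exact zero_mem_nonunits P
  obtain ⟨k₁, k₂, a, b, ha, hb, rfl⟩ := exists_decomp z h.span_ne_top e he0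
  have hle : k₂ ≤ k₁ := (h.mem_iff hz0 k₁ k₂ a b ha hb).mp he
  rcases Nat.lt_or_eq_of_le hle with hlt | heq
  · refine ⟨0, ?_⟩
    rw [map_zero, sub_zero]
    exact (h.mem_nonunits_iff hz0 k₁ k₂ a b ha hb).mpr hlt
  · subst heq
    have hz0' : algebraMap S E z ≠ 0 :=
      (map_ne_zero_iff _ (IsFractionRing.injective S E)).mpr hz0
    have hb0 : algebraMap S E b ≠ 0 := by
      intro h0
      have := h.valuation_eq_one b hb
      rw [h0, map_zero] at this
      exact zero_ne_one this
    obtain ⟨da, hda⟩ := hstar a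
    obtain ⟨db, hdb⟩ := hstar b
    have hdbu : IsUnit db := by
      apply hunit
      intro hin
      apply hb
      have := Ideal.add_mem _ hdb hin
      rwa [sub_add_cancel] at this
    obtain ⟨u, hu⟩ := hdbu.exists_right_inv
    refine ⟨da * u, ?_⟩
    have hsimp : (algebraMap S E z ^ k₂ * algebraMap S E a)
        / (algebraMap S E z ^ k₂ * algebraMap S E b) = algebraMap S E a / algebraMap S E b :=
      mul_div_mul_left _ _ (pow_ne_zero _ hz0')
    have hnum : algebraMap S E a / algebraMap S E b - algebraMap R E (da * u)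
        = algebraMap S E ((a - algebraMap R S da)
            - algebraMap R S (da * u) * (b - algebraMap R S db)) * (algebraMap S E b)⁻¹ := by
      have h1 : algebraMap R S (da * u) * algebraMap R S db = algebraMap R S da := by
        rw [← map_mul, mul_assoc, mul_comm u db, hu, mul_one]
      have h2 : (a - algebraMap R S da) - algebraMap R S (da * u) * (b - algebraMap R S db)
          = a - algebraMap R S (da * u) * b := by
        rw [mul_sub, h1]
        ring
      have h3 : algebraMap S E (a - algebraMap R S (da * u) * b)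
          = algebraMap S E a - algebraMap R E (da * u) * algebraMap S E b := by
        rw [map_sub, map_mul, ← IsScalarTower.algebraMap_apply R S E]
      rw [h2, h3]
      field_simp
    rw [hsimp, hnum]
    refine mul_mem_nonunits P (h.span_le _ ?_) ?_
    · exact Ideal.sub_mem _ hda (Ideal.mul_mem_left _ _ hdb)
    · rw [← ValuationSubring.valuation_le_one_iff, map_inv₀, h.valuation_eq_one b hb, inv_one]

end core

end Fermat.Agent.H46.SS2
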