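/-
P-SS2 row 993 (SS2-A9 DK-INSEP), helper46: coordinates in `O[z]` (Mathlib only).

Setup `DKSetup O z p P₀`: `z` a root of the monic `P₀ ∈ O[T]` of degree `p` with IRREDUCIBLE
reduction.  Then `1, z, …, z^(p-1)` are linearly independent over `K`, every combination
`∑ c_j z^j` with `c_j ∈ O` not all in the maximal ideal is a unit of `O[z]`, and if `[L : K] = p`
every nonzero element of `L` is `d · u` with `d ∈ Kˣ` and `u ∈ O[z]ˣ`; hence `O[z]` is a valuation
subring of `L`.
-/
import Mathlib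
import Fermat.Agent.H46.SS2.DKCore
import Fermat.Agent.H46.SS2.PlaceCore

set_option autoImplicit false
set_option linter.unusedSectionVars false

open Polynomial

namespace Fermat.Agent.H46.SS2

section DKCoord

variable {K L : Type*} [Field K] [Field L] [Algebra K L] (O : ValuationSubring K) (z : L)

/-- The hypotheses of the Dedekind-Kummer situation with irreducible reduction. -/
structure DKSetup (p : ℕ) (P₀ : O[X]) : Prop where
  monic : P₀.Monic
  natDegree : P₀.natDegree = p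
  root : aeval z P₀ = 0
  irr : Irreducible (P₀.map (IsLocalRing.residue O))

/-- the polynomial `∑ c_j T^j` -/
noncomputable def dkPoly {p : ℕ} (c : Fin p → O) : O[X] := ∑ j : Fin p, C (c j) * X ^ (j : ℕ)

theorem dkPoly_coeff {p : ℕ} (c : Fin p → O) (j : Fin p) : (dkPoly O c).coeff (j : ℕ) = c j := by
  unfold dkPoly
  rw [finsetSum_coeff]
  rw [Finset.sum_eq_single j]
  · rw [coeff_C_mul_X_pow, if_pos rfl]
  · intro i _ hij
    rw [coeff_C_mul_X_pow, if_neg]
    intro h
    exact hij (Fin.ext h.symm)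
  · intro h
    exact absurd (Finset.mem_univ j) h

theorem dkPoly_map {p : ℕ} (c : Fin p → O) :
    (dkPoly O c).map (IsLocalRing.residue O)
      = ∑ j : Fin p, C (IsLocalRing.residue O (c j)) * X ^ (j : ℕ) := by
  unfold dkPoly
  rw [Polynomial.map_sum]
  refine Finset.sum_congr rfl fun j _ => ?_
  rw [Polynomial.map_mul, Polynomial.map_pow, map_C, map_X]

theorem dkPoly_aeval {p : ℕ} (c : Fin p → O) :
    aeval z (dkPoly O c) = ∑ j : Fin p, algebraMap K L (c j : K) * z ^ (j : ℕ) := by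
  unfold dkPoly
  rw [map_sum]
  refine Finset.sum_congr rfl fun j _ => ?_
  rw [map_mul, map_pow, aeval_C, aeval_X]
  rfl

variable {O z}
variable {p : ℕ} {P₀ : O[X]}

theorem DKSetup.isIntegral (h : DKSetup O z p P₀) : IsIntegral O z :=
  ⟨P₀, h.monic, by rw [← aeval_def]; exact h.root⟩

theorem DKSetup.natDegree_map (h : DKSetup O z p P₀) :
    (P₀.map (IsLocalRing.residue O)).natDegree = p := by
  rw [h.monic.natDegree_map, h.natDegree]

/-- a polynomial of degree `< p` with nonzero reduction is prime to `P̄₀` -/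
theorem DKSetup.not_dvd (h : DKSetup O z p P₀) (c : Fin p → O) (j₁ : Fin p)
    (hj : c j₁ ∉ IsLocalRing.maximalIdeal O) :
    ¬ P₀.map (IsLocalRing.residue O) ∣ (dkPoly O c).map (IsLocalRing.residue O) := by
  intro hdvd
  have hne : (dkPoly O c).map (IsLocalRing.residue O) ≠ 0 := by
    intro h0
    have h1 := congrArg (fun q => q.coeff (j₁ : ℕ)) h0
    simp only [coeff_map, coeff_zero, dkPoly_coeff] at h1
    exact hj ((IsLocalRing.residue_eq_zero_iff _).mp h1)
  have hdeg : ((dkPoly O c).map (IsLocalRing.residue O)).degree < (p : WithBot ℕ) := by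
    rw [dkPoly_map]
    exact degree_sum_fin_lt _
  have hnat : ((dkPoly O c).map (IsLocalRing.residue O)).natDegree
      < (P₀.map (IsLocalRing.residue O)).natDegree := by
    rw [h.natDegree_map]
    exact (natDegree_lt_iff_degree_lt hne).mpr hdeg
  exact hne (eq_zero_of_dvd_of_natDegree_lt hdvd hnat)

/-- **Unit lemma in coordinates.** -/
theorem DKSetup.isUnit_dkPoly (h : DKSetup O z p P₀) (c : Fin p → O) (j₁ : Fin p)
    (hj : c j₁ ∉ IsLocalRing.maximalIdeal O) :
    IsUnit (aeval (dkGen O z) (dkPoly O c)) :=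
  dk_isUnit_aeval O z h.isIntegral P₀ h.root h.irr _ (h.not_dvd c j₁ hj)

/-- the inverse (in `L`) of a unit of `O[z]` lies in `O[z]` -/
theorem dk_inv_mem_of_isUnit (b : ↥(Algebra.adjoin O ({z} : Set L))) (hb : IsUnit b) :
    (b : L) ≠ 0 ∧ (b : L)⁻¹ ∈ Algebra.adjoin O ({z} : Set L) := by
  obtain ⟨v, hv⟩ := hb.exists_right_inv
  have hv' : (b : L) * (v : L) = 1 := congrArg Subtype.val hv
  have hb0 : (b : L) ≠ 0 := left_ne_zero_of_mul_eq_one hv'
  refine ⟨hb0, ?_⟩
  have : (b : L)⁻¹ = v := (eq_inv_of_mul_eq_one_right hv').symm ▸ rfl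
  rw [this]
  exact v.2

/-- **Normalisation**: a nonzero combination `∑ c_j z^j` is `d · u` with `u` a unit of `O[z]`. -/
theorem DKSetup.normalize (h : DKSetup O z p P₀) (c : Fin p → K) (hc : c ≠ 0) :
    ∃ d : K, d ≠ 0 ∧ ∃ u : L, u ≠ 0 ∧ u ∈ Algebra.adjoin O ({z} : Set L) ∧
      u⁻¹ ∈ Algebra.adjoin O ({z} : Set L) ∧
      ∑ j : Fin p, c j • z ^ (j : ℕ) = algebraMap K L d * u := by
  classical
  have hex : ∃ j₁, c j₁ ≠ 0 := by
    by_contra hcon
    push Not at hcon
    exact hc (funext hcon)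
  obtain ⟨j₁, hj₁⟩ := hex
  obtain ⟨j₀, -, hmax⟩ := Finset.exists_max_image Finset.univ (fun j => O.valuation (c j))
    ⟨j₁, Finset.mem_univ _⟩
  have hv1 : O.valuation (c j₁) ≠ 0 := (Valuation.ne_zero_iff _).mpr hj₁
  have hv0 : O.valuation (c j₀) ≠ 0 := by
    intro h0
    have h1 := hmax j₁ (Finset.mem_univ _)
    simp only [h0] at h1
    exact hv1 (le_antisymm h1 zero_le)
  have hd0 : c j₀ ≠ 0 := (Valuation.ne_zero_iff _).mp hv0
  have hmem : ∀ j, c j / c j₀ ∈ O := by
    intro j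
    rw [← ValuationSubring.valuation_le_one_iff, map_div₀]
    exact (div_le_one₀ (zero_lt_iff.mpr hv0)).mpr (hmax j (Finset.mem_univ _))
  let c' : Fin p → O := fun j => ⟨c j / c j₀, hmem j⟩
  have hc'0 : c' j₀ ∉ IsLocalRing.maximalIdeal O := by
    have h1 : c' j₀ = 1 := Subtype.ext (div_self hd0)
    rw [h1]
    intro h2
    exact (IsLocalRing.mem_maximalIdeal _).mp h2 isUnit_one
  have hu := h.isUnit_dkPoly c' j₀ hc'0
  obtain ⟨hu0, huinv⟩ := dk_inv_mem_of_isUnit _ hu
  rw [dk_coe_aeval] at hu0 huinv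
  refine ⟨c j₀, hd0, aeval z (dkPoly O c'), hu0, ?_, huinv, ?_⟩
  · rw [← dk_coe_aeval]
    exact Subtype.mem _
  · rw [dkPoly_aeval, Finset.mul_sum]
    refine Finset.sum_congr rfl fun j _ => ?_
    rw [Algebra.smul_def, ← mul_assoc, ← map_mul]
    congr 2
    show c j = c j₀ * (c j / c j₀)
    field_simp

theorem DKSetup.linearIndependent (h : DKSetup O z p P₀) :
    LinearIndependent K (fun j : Fin p => z ^ (j : ℕ)) := by
  rw [Fintype.linearIndependent_iff]
  intro g hg
  by_contra hcon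
  push Not at hcon
  obtain ⟨i, hi⟩ := hcon
  have hg0 : g ≠ 0 := fun h0 => hi (by rw [h0]; rfl)
  obtain ⟨d, hd, u, hu0, -, -, hsum⟩ := h.normalize g hg0
  rw [hg] at hsum
  have hd' : algebraMap K L d ≠ 0 := (_root_.map_ne_zero _).mpr hd
  exact mul_ne_zero hd' hu0 hsum.symm

variable [FiniteDimensional K L]

theorem DKSetup.exists_coord (h : DKSetup O z p P₀) (hfr : Module.finrank K L = p) (l : L) :
    ∃ c : Fin p → K, ∑ j : Fin p, c j • z ^ (j : ℕ) = l := by
  have hspan := h.linearIndependent.span_eq_top_of_card_eq_finrank'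
    (by rw [Fintype.card_fin, hfr])
  have hl : l ∈ Submodule.span K (Set.range fun j : Fin p => z ^ (j : ℕ)) := by
    rw [hspan]
    exact Submodule.mem_top
  exact (Submodule.mem_span_range_iff_exists_fun K).mp hl

/-- every nonzero element of `L` is `d · u` with `d ∈ Kˣ` and `u ∈ O[z]ˣ` -/
theorem DKSetup.decomp (h : DKSetup O z p P₀) (hfr : Module.finrank K L = p) (l : L)
    (hl : l ≠ 0) :
    ∃ d : K, d ≠ 0 ∧ ∃ u : L, u ≠ 0 ∧ u ∈ Algebra.adjoin O ({z} : Set L) ∧
      u⁻¹ ∈ Algebra.adjoin O ({z} : Set L) ∧ l = algebraMap K L d * u := by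
  obtain ⟨c, hc⟩ := h.exists_coord hfr l
  have hc0 : c ≠ 0 := by
    rintro rfl
    apply hl
    rw [← hc]
    simp
  obtain ⟨d, hd, u, hu0, hu, hui, hsum⟩ := h.normalize c hc0
  exact ⟨d, hd, u, hu0, hu, hui, by rw [← hc, hsum]⟩

theorem dk_algebraMap_mem (d : K) (hd : d ∈ O) :
    algebraMap K L d ∈ Algebra.adjoin O ({z} : Set L) :=
  Subalgebra.algebraMap_mem (Algebra.adjoin O ({z} : Set L)) (⟨d, hd⟩ : O)

theorem DKSetup.cond (h : DKSetup O z p P₀) (hfr : Module.finrank K L = p) (l : L) :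
    l ∈ (Algebra.adjoin O ({z} : Set L)).toSubring ∨
      l⁻¹ ∈ (Algebra.adjoin O ({z} : Set L)).toSubring := by
  by_cases hl : l = 0
  · left
    rw [hl]
    exact zero_mem _
  obtain ⟨d, hd, u, hu0, hu, hui, rfl⟩ := h.decomp hfr l hl
  rcases O.mem_or_inv_mem d with hdO | hdO
  · left
    exact mul_mem (dk_algebraMap_mem d hdO) hu
  · right
    rw [mul_inv, ← map_inv₀]
    exact mul_mem (dk_algebraMap_mem d⁻¹ hdO) hui

/-- `O[z]` as a valuation subring of `L` -/
noncomputable def DKSetup.valSub (h : DKSetup O z p P₀) (hfr : Module.finrank K L = p) :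
    ValuationSubring L :=
  ValuationSubring.ofSubring _ (h.cond hfr)

theorem DKSetup.mem_valSub (h : DKSetup O z p P₀) (hfr : Module.finrank K L = p) (l : L) :
    l ∈ h.valSub hfr ↔ l ∈ Algebra.adjoin O ({z} : Set L) := Iff.rfl

end DKCoord

end Fermat.Agent.H46.SS2
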