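/-
P-SS2 row 978 (SS2-C5a NORMPLACE), helper46: the MODULE-THEORETIC part (Mathlib only).

`R` a principal ideal domain, `S` a domain, finite free over `R`, `z : S`, `n = N_{S/R}(z)`.
* `norm_mem_span`      : `n ∈ z S` (Cayley-Hamilton);
* `one_not_mem_span`   : `1 ∉ z S` if `n` is not a unit;
* `exists_sub_mem_span`: if `n` generates the ideal of non-units of `R` (`n ≠ 0`), then
  `S = R + z S` (Smith normal form: `S / z S ≃ R / n R`).
-/
import Mathlib

set_option autoImplicit false
set_option linter.unusedSectionVars false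

open Polynomial

namespace Fermat.Agent.H46.SS2

section LemmaB

variable {R S : Type*} [CommRing R] [IsDomain R] [CommRing S] [IsDomain S]
  [Algebra R S] [Module.Free R S] [Module.Finite R S]

/-- Cayley-Hamilton: the norm of `z` is a multiple of `z`. -/
theorem norm_mem_span (z : S) : algebraMap R S (Algebra.norm R z) ∈ Ideal.span {z} := by
  obtain ⟨f, hf⟩ : ∃ f : S →ₗ[R] S, f = Algebra.lmul R S z := ⟨_, rfl⟩
  have h1 : aeval z f.charpoly = 0 := by
    have h := LinearMap.aeval_self_charpoly f
    have h' : aeval (Algebra.lmul R S z) f.charpoly = 0 := by rw [← hf]; exact h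
    rw [Polynomial.aeval_algHom_apply] at h'
    have h2 := LinearMap.congr_fun h' 1
    simpa using h2
  have h3 : algebraMap R S (f.charpoly.coeff 0) = -(aeval z f.charpoly.divX * z) := by
    have h4 : aeval z (f.charpoly.divX * X + C (f.charpoly.coeff 0)) = 0 := by
      rw [Polynomial.divX_mul_X_add]
      exact h1
    rw [map_add, map_mul, aeval_X, aeval_C] at h4
    exact eq_neg_of_add_eq_zero_right h4
  have h5 : Algebra.norm R z = (-1) ^ Module.finrank R S * f.charpoly.coeff 0 := by
    rw [Algebra.norm_apply, ← LinearMap.det_eq_sign_charpoly_coeff, hf]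
  rw [h5, map_mul, h3, Ideal.mem_span_singleton']
  exact ⟨-(algebraMap R S ((-1) ^ Module.finrank R S) * aeval z f.charpoly.divX), by ring⟩

/-- `1 ∉ z S` if the norm of `z` is not a unit. -/
theorem one_not_mem_span (z : S) (hz : ¬ IsUnit (Algebra.norm R z)) :
    (1 : S) ∉ Ideal.span {z} := by
  intro h
  obtain ⟨s, hs⟩ := Ideal.mem_span_singleton'.mp h
  apply hz
  have h1 : Algebra.norm R s * Algebra.norm R z = 1 := by
    rw [← map_mul, hs, map_one]
  exact IsUnit.of_mul_eq_one _ (by rw [mul_comm]; exact h1)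

variable [IsPrincipalIdealRing R]

/-- If a product is associated to a prime, all factors but one are units. -/
theorem exists_unique_nonunit_of_associated_prime {ι : Type*} [Fintype ι] [DecidableEq ι]
    {p : R} (hp : Prime p) (c : ι → R) (h : Associated p (∏ i, c i)) :
    ∃ i₀, Associated p (c i₀) ∧ ∀ i, i ≠ i₀ → IsUnit (c i) := by
  obtain ⟨i₀, -, hi₀⟩ := (Prime.dvd_finsetProd_iff hp c).mp h.dvd
  obtain ⟨t, ht⟩ := hi₀
  have hprod : ∏ i, c i = c i₀ * ∏ i ∈ Finset.univ.erase i₀, c i :=
    (Finset.mul_prod_erase Finset.univ c (Finset.mem_univ i₀)).symm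
  obtain ⟨u, hu⟩ := h
  -- `p * u = p * t * ∏'`
  have h1 : p * (t * ∏ i ∈ Finset.univ.erase i₀, c i) = p * u := by
    rw [hu, hprod, ht]
    ring
  have h2 : t * ∏ i ∈ Finset.univ.erase i₀, c i = u := mul_left_cancel₀ hp.ne_zero h1
  have h3 : IsUnit (t * ∏ i ∈ Finset.univ.erase i₀, c i) := by
    rw [h2]
    exact u.isUnit
  have ht' : IsUnit t := isUnit_of_mul_isUnit_left h3
  have hP : IsUnit (∏ i ∈ Finset.univ.erase i₀, c i) := isUnit_of_mul_isUnit_right h3
  refine ⟨i₀, ?_, fun i hi => ?_⟩
  · rw [ht]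
    exact (associated_mul_unit_right p t ht')
  · exact (IsUnit.prod_iff.mp hP) i (Finset.mem_erase.mpr ⟨hi, Finset.mem_univ i⟩)

/-- **`S = R + z S`** when the norm of `z` generates the non-units of `R`. -/
theorem exists_sub_mem_span (z : S) (hn0 : Algebra.norm R z ≠ 0)
    (hnu : ¬ IsUnit (Algebra.norm R z))
    (hdiv : ∀ x : R, ¬ IsUnit x → Algebra.norm R z ∣ x) (s : S) :
    ∃ d : R, s - algebraMap R S d ∈ Ideal.span {z} := by
  classical
  set n := Algebra.norm R z with hn
  -- `n` is prime
  have hirr : Irreducible n := by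
    refine ⟨hnu, fun a b hab => ?_⟩
    by_cases ha : IsUnit a
    · exact Or.inl ha
    · right
      obtain ⟨c, hc⟩ := hdiv a ha
      have h1 : n * (c * b) = n * 1 := by
        rw [mul_one]
        nth_rewrite 2 [hab]
        rw [hc]
        ring
      exact IsUnit.of_mul_eq_one _ (by rw [mul_comm]; exact mul_left_cancel₀ hn0 h1)
  have hprime : Prime n := UniqueFactorizationMonoid.irreducible_iff_prime.mp hirr
  have hz0 : z ≠ 0 := by
    intro h0
    apply hn0
    rw [hn, h0]
    exact Algebra.norm_zero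
  have hI : Ideal.span {z} ≠ ⊥ := Ideal.span_singleton_eq_bot.not.2 hz0
  set b := Module.Free.chooseBasis R S with hb
  set c := Ideal.smithCoeffs b (Ideal.span {z}) hI with hc
  have hassoc : Associated n (∏ i, c i) := associated_norm_prod_smith b hz0
  obtain ⟨i₀, hi₀, hunits⟩ := exists_unique_nonunit_of_associated_prime hprime c hassoc
  let e := Ideal.quotientEquivPiSpan (Ideal.span {z}) b hI
  -- elements of the product are determined by their `i₀`-component
  have hext : ∀ u w : (i : _) → R ⧸ Ideal.span {c i}, u i₀ = w i₀ → u = w := by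
    intro u w h
    funext i
    by_cases hi : i = i₀
    · subst hi
      exact h
    · have htop : Ideal.span {c i} = ⊤ := Ideal.span_singleton_eq_top.mpr (hunits i hi)
      have : Subsingleton (R ⧸ Ideal.span {c i}) := by
        rw [htop]
        exact Ideal.Quotient.subsingleton_iff.mpr rfl
      exact Subsingleton.elim _ _
  obtain ⟨r, hr⟩ := Ideal.Quotient.mk_surjective (e (Ideal.Quotient.mk _ 1) i₀)
  obtain ⟨t, ht⟩ := Ideal.Quotient.mk_surjective (e (Ideal.Quotient.mk _ s) i₀)
  have hrunit : IsUnit r := by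
    by_contra hru
    obtain ⟨r', hr'⟩ := hdiv r hru
    have h0 : (Ideal.Quotient.mk (Ideal.span {c i₀})) r = 0 := by
      rw [Ideal.Quotient.eq_zero_iff_mem, Ideal.mem_span_singleton]
      exact hi₀.symm.dvd.trans ⟨r', hr'⟩
    have h1 : e (Ideal.Quotient.mk _ 1) = 0 := by
      apply hext
      rw [← hr, h0]
      rfl
    have h2 : (Ideal.Quotient.mk (Ideal.span {z})) 1 = 0 := e.map_eq_zero_iff.mp h1
    exact one_not_mem_span z hnu (Ideal.Quotient.eq_zero_iff_mem.mp h2)
  obtain ⟨r₁, hr₁⟩ := hrunit.exists_left_inv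
  refine ⟨t * r₁, ?_⟩
  rw [← Ideal.Quotient.eq]
  apply e.injective
  apply hext
  have h3 : (Ideal.Quotient.mk (Ideal.span {z})) (algebraMap R S (t * r₁))
      = (t * r₁) • (Ideal.Quotient.mk (Ideal.span {z})) 1 := by
    rw [Algebra.algebraMap_eq_smul_one]
    rfl
  rw [h3, map_smul, Pi.smul_apply, ← hr, ← ht]
  show _ = (t * r₁) • (Ideal.Quotient.mk (Ideal.span {c i₀})) r
  rw [Algebra.smul_def]
  show _ = (Ideal.Quotient.mk (Ideal.span {c i₀})) (t * r₁) * _
  rw [← map_mul, mul_assoc, hr₁, mul_one]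

end LemmaB

end Fermat.Agent.H46.SS2
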