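/-
P-SS2 row 978 (SS2-C5a NORMPLACE), helper46: `NormPlaceStatement` (Mathlib only).

`E / E'` finite, characteristic zero, `O'` a discrete valuation ring of `E'`, `Z : E` integral
over `O'`, `N = N_{E/E'}(Z)`:
(a) `Z` a non-unit of a valuation ring `P` above `O'` ⟹ `N` a non-unit of `O'`;
(b) `N` a uniformiser of `O'` ⟹ the valuation ring `P` above `O'` with `Z` a non-unit is unique
    and has residue degree one.
-/
import Mathlib
import Fermat.Agent.H12.SS2.Reg11Defs
import Fermat.Agent.H46.SS2.NormSmith
import Fermat.Agent.H46.SS2.PlaceCore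

set_option autoImplicit false
set_option linter.unusedSectionVars false

open Polynomial

namespace Fermat.Agent.H46.SS2

section glue

variable {E' E : Type*} [Field E'] [Field E] [Algebra E' E] (O' : ValuationSubring E')

/-- An element with a monic equation with coefficients in `O'` is integral over `O'`. -/
theorem isIntegral_of_monic (Z : E)
    (hZ : ∃ p : Polynomial E', p.Monic ∧ (∀ i, p.coeff i ∈ O') ∧ Polynomial.aeval Z p = 0) :
    IsIntegral O' Z := by
  obtain ⟨p, hpm, hpc, hpZ⟩ := hZ
  have hlift : p ∈ Polynomial.lifts (algebraMap O' E') := by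
    rw [Polynomial.lifts_iff_coeff_lifts]
    intro n
    exact ⟨⟨p.coeff n, hpc n⟩, rfl⟩
  obtain ⟨q, hq, -, hqm⟩ := Polynomial.lifts_and_natDegree_eq_and_monic hlift hpm
  refine ⟨q, hqm, ?_⟩
  rw [← Polynomial.aeval_def, ← Polynomial.aeval_map_algebraMap E', hq]
  exact hpZ

/-- A valuation ring above `O'` contains the integral closure of `O'`. -/
theorem mem_of_isIntegral (P : ValuationSubring E) (hP : P.comap (algebraMap E' E) = O')
    (s : E) (hs : IsIntegral O' s) : s ∈ P := by
  have hmem : ∀ r : O', algebraMap O' E r ∈ P := by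
    intro r
    have h1 : (r : E') ∈ P.comap (algebraMap E' E) := by rw [hP]; exact r.2
    exact h1
  let φ : O' →+* P := (algebraMap O' E).codRestrict P.toSubring hmem
  obtain ⟨q, hqm, hq⟩ := hs
  have hint : IsIntegral P s := by
    refine ⟨q.map φ, hqm.map φ, ?_⟩
    rw [Polynomial.eval₂_map]
    have hcomp : (algebraMap P E).comp φ = algebraMap O' E := by
      ext r
      rfl
    rw [hcomp]
    exact hq
  obtain ⟨y, hy⟩ := IsIntegrallyClosed.isIntegral_iff.mp hint
  rw [← hy]
  exact y.2

theorem isUnit_iff_not_mem_nonunits (x : O') : IsUnit x ↔ (x : E') ∉ O'.nonunits := by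
  rw [ValuationSubring.coe_mem_nonunits_iff, IsLocalRing.mem_maximalIdeal, mem_nonunits_iff,
    not_not]

end glue

/-- **SS2-C5a NORMPLACE**: the norm argument for places. -/
theorem normPlace : Fermat.Agent.H12.SS2.NormPlaceStatement := by
  intro E' E _ _ _ _ _ O' htop hPID Z hZ
  have hZint : IsIntegral O' Z := isIntegral_of_monic O' Z hZ
  -- the integral closure `S` of `O'` in `E`
  have hsep : Algebra.IsSeparable E' E := Algebra.IsSeparable.of_integral E' E
  have hfin : Module.Finite O' (integralClosure O' E) :=
    IsIntegralClosure.finite O' E' E (integralClosure O' E)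
  have hfree : Module.Free O' (integralClosure O' E) :=
    Module.free_of_finite_type_torsion_free'
  have hnoeth : IsNoetherianRing (integralClosure O' E) :=
    IsNoetherianRing.of_finite O' (integralClosure O' E)
  have hfrac : IsFractionRing (integralClosure O' E) E :=
    integralClosure.isFractionRing_of_finite_extension E' E
  have hloc : IsLocalization
      (Algebra.algebraMapSubmonoid (integralClosure O' E) (nonZeroDivisors O')) E :=
    IsIntegralClosure.isLocalization O' E' E (integralClosure O' E)
  obtain ⟨z, hz⟩ : ∃ z : integralClosure O' E, (z : E) = Z := ⟨⟨Z, hZint⟩, rfl⟩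
  have hnorm : Algebra.norm E' Z = ((Algebra.norm O' z : O') : E') := by
    rw [← hz]
    exact Algebra.norm_localization O' (nonZeroDivisors O') z
  -- elements of `z S` are non-units of `P`
  have hspan : ∀ P : ValuationSubring E, P.comap (algebraMap E' E) = O' → Z ∈ P.nonunits →
      ∀ s : integralClosure O' E, s ∈ Ideal.span {z} → (s : E) ∈ P.nonunits := by
    intro P hP hZP s hs
    obtain ⟨t, ht⟩ := Ideal.mem_span_singleton'.mp hs
    have h1 : (s : E) = Z * (t : E) := by
      rw [← ht, ← hz, mul_comm]
      rfl
    rw [h1]
    exact mul_mem_nonunits P hZP (mem_of_isIntegral O' P hP _ t.2)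
  have hcoe : ∀ d : O', ((algebraMap O' (integralClosure O' E) d : integralClosure O' E) : E)
      = algebraMap E' E (d : E') := fun d => rfl
  constructor
  · -- (a)
    intro P hP hZP
    have h1 := hspan P hP hZP _ (norm_mem_span (R := O') z)
    rw [hcoe, ← hnorm] at h1
    rw [← hP]
    exact (mem_nonunits_comap P _ _).mpr h1
  · -- (b)
    rintro ⟨hN0, hNnu, hNdiv⟩
    have hn0 : Algebra.norm O' z ≠ 0 := by
      intro h0
      apply hN0
      rw [hnorm, h0]
      rfl
    have hnu : ¬ IsUnit (Algebra.norm O' z) := by
      rw [isUnit_iff_not_mem_nonunits, not_not, ← hnorm]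
      exact hNnu
    have hdiv : ∀ x : O', ¬ IsUnit x → Algebra.norm O' z ∣ x := by
      intro x hx
      rw [isUnit_iff_not_mem_nonunits, not_not] at hx
      refine ⟨⟨(x : E') / Algebra.norm E' Z, hNdiv _ hx⟩, ?_⟩
      apply Subtype.ext
      show (x : E') = ((Algebra.norm O' z : O') : E') * ((x : E') / Algebra.norm E' Z)
      rw [← hnorm]
      field_simp
    have hz0 : z ≠ 0 := by
      intro h0
      apply hn0
      rw [h0]
      exact Algebra.norm_zero
    have hstar := exists_sub_mem_span (R := O') z hn0 hnu hdiv
    have hunit : ∀ d : O', algebraMap O' (integralClosure O' E) d ∉ Ideal.span {z} →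
        IsUnit d := by
      intro d hd
      by_contra hdu
      obtain ⟨c, hc⟩ := hdiv d hdu
      apply hd
      rw [hc, map_mul]
      exact Ideal.mul_mem_right _ _ (norm_mem_span (R := O') z)
    have hcentred : ∀ P : ValuationSubring E, P.comap (algebraMap E' E) = O' →
        Z ∈ P.nonunits → IsCentredAt P z := by
      intro P hP hZP
      refine ⟨fun s => mem_of_isIntegral O' P hP _ s.2, fun s hs => ?_, by rw [← hz] at hZP; exact hZP⟩
      obtain ⟨d, hd⟩ := hstar s
      have h1 : ((s - algebraMap O' (integralClosure O' E) d : integralClosure O' E) : E)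
          ∈ P.nonunits := hspan P hP hZP _ hd
      have h2 : algebraMap E' E (d : E') ∈ P.nonunits := by
        have h3 := sub_mem_nonunits P hs h1
        have h4 : algebraMap (integralClosure O' E) E s
            - ((s - algebraMap O' (integralClosure O' E) d : integralClosure O' E) : E)
            = algebraMap E' E (d : E') := by
          show (s : E) - ((s : E) - algebraMap E' E (d : E')) = _
          ring
        rw [← h4]
        exact h3
      have h5 : (d : E') ∈ O'.nonunits := by
        have h := (mem_nonunits_comap P (algebraMap E' E) (d : E')).mpr h2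
        rw [hP] at h
        exact h
      have h6 : ¬ IsUnit d := by
        rw [isUnit_iff_not_mem_nonunits, not_not]
        exact h5
      have h7 : algebraMap O' (integralClosure O' E) d ∈ Ideal.span {z} := by
        by_contra hcon
        exact h6 (hunit d hcon)
      have := Ideal.add_mem _ hd h7
      rwa [sub_add_cancel] at this
    constructor
    · intro P₁ P₂ h₁ h₂ hZ₁ hZ₂
      exact placeCore_unique hz0 (hcentred P₁ h₁ hZ₁) (hcentred P₂ h₂ hZ₂)
    · intro P hP hZP s hs
      obtain ⟨d, hd⟩ := placeCore_residue (R := O') hz0 (hcentred P hP hZP) hstar hunit s hs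
      exact ⟨(d : E'), d.2, hd⟩

end Fermat.Agent.H46.SS2
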