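/-
P-SS2 row 993 (SS2-A9 DK-INSEP), helper46 (second seat): Dedekind-Kummer for a discrete valuation
subring, purely inseparable residue extension of degree `p` (Mathlib only).

`dkInsep : Fermat.Agent.H11.SS2.DKInsepStatement`.
-/
import Mathlib
import Fermat.Agent.H11.SS2.DKDefs
import Fermat.Agent.H46.SS2.DKCoord
import Fermat.Agent.H46.SS2.NormPlace

set_option autoImplicit false
set_option linter.unusedSectionVars false

open Polynomial

namespace Fermat.Agent.H46.SS2

section nonunitsSum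

variable {K : Type*} [Field K] (A : ValuationSubring K)

theorem sum_mem_nonunits {ι : Type*} (s : Finset ι) (f : ι → K)
    (h : ∀ i ∈ s, f i ∈ A.nonunits) : ∑ i ∈ s, f i ∈ A.nonunits := by
  classical
  induction s using Finset.induction_on with
  | empty =>
    rw [Finset.sum_empty]
    exact zero_mem_nonunits A
  | insert a s ha ih =>
    rw [Finset.sum_insert ha]
    exact add_mem_nonunits A (h a (Finset.mem_insert_self a s))
      (ih fun i hi => h i (Finset.mem_insert_of_mem hi))

theorem neg_mem_nonunits {x : K} (hx : x ∈ A.nonunits) : -x ∈ A.nonunits := by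
  have := sub_mem_nonunits A (zero_mem_nonunits A) hx
  rwa [zero_sub] at this

end nonunitsSum

section DKVal

variable {K L : Type*} [Field K] [Field L] [Algebra K L] [FiniteDimensional K L]
  {O : ValuationSubring K} {z : L} {p : ℕ} {P₀ : O[X]}

theorem DKSetup.pos (h : DKSetup O z p P₀) : 0 < p := by
  rw [← h.natDegree_map]
  exact natDegree_pos_iff_degree_pos.mpr (degree_pos_of_irreducible h.irr)

theorem DKSetup.comap_valSub (h : DKSetup O z p P₀) (hfr : Module.finrank K L = p) :
    (h.valSub hfr).comap (algebraMap K L) = O := by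
  ext x
  rw [ValuationSubring.mem_comap, DKSetup.mem_valSub]
  constructor
  · intro hfx
    by_contra hx
    have hx0 : x ≠ 0 := by
      rintro rfl
      exact hx (zero_mem O)
    have hxi : x⁻¹ ∈ O.nonunits := by
      rw [mem_nonunits_iff_inv_not_mem O (inv_ne_zero hx0), inv_inv]
      exact hx
    have hc : (⟨x⁻¹, O.nonunits_subset hxi⟩ : O) ∈ IsLocalRing.maximalIdeal O :=
      ValuationSubring.coe_mem_nonunits_iff.mp hxi
    have hjac := dk_algebraMap_mem_jacobson O z h.isIntegral _ hc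
    apply dk_not_isUnit_of_mem_jacobson O z _ hjac
    refine IsUnit.of_mul_eq_one (⟨algebraMap K L x, hfx⟩ : ↥(Algebra.adjoin O ({z} : Set L)))
      (Subtype.ext ?_)
    show algebraMap K L x⁻¹ * algebraMap K L x = 1
    rw [← map_mul, inv_mul_cancel₀ hx0, map_one]
  · intro hx
    exact dk_algebraMap_mem x hx

theorem DKSetup.mem_nonunits_valSub_iff (h : DKSetup O z p P₀)
    (hfr : Module.finrank K L = p) (l : L) :
    l ∈ (h.valSub hfr).nonunits ↔
      ∃ G : O[X], (∀ i, G.coeff i ∈ IsLocalRing.maximalIdeal O) ∧ aeval z G = l := by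
  constructor
  · intro hl
    have hlB : l ∈ Algebra.adjoin O ({z} : Set L) := (h.valSub hfr).nonunits_subset hl
    rcases dk_dichotomy O z h.isIntegral P₀ h.root h.irr ⟨l, hlB⟩ with hu | ⟨G, hG, hGl⟩
    · exfalso
      obtain ⟨h0, hinv⟩ := dk_inv_mem_of_isUnit _ hu
      rw [ValuationSubring.mem_nonunits_iff_or] at hl
      rcases hl with hl | hl
      · exact h0 hl
      · exact hl hinv
    · refine ⟨G, hG, ?_⟩
      rw [← dk_coe_aeval, hGl]
  · rintro ⟨G, hG, rfl⟩
    have hjac := dk_aeval_mem_jacobson O z h.isIntegral G hG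
    have hnu := dk_not_isUnit_of_mem_jacobson O z _ hjac
    rw [ValuationSubring.mem_nonunits_iff_or]
    by_cases h0 : aeval z G = 0
    · exact Or.inl h0
    · right
      intro hinv
      apply hnu
      refine IsUnit.of_mul_eq_one (⟨(aeval z G)⁻¹, hinv⟩ : ↥(Algebra.adjoin O ({z} : Set L)))
        (Subtype.ext ?_)
      show ((aeval (dkGen O z) G : ↥(Algebra.adjoin O ({z} : Set L))) : L) * (aeval z G)⁻¹ = 1
      rw [dk_coe_aeval, mul_inv_cancel₀ h0]

/-- independence of the residues of `1, z, …, z^(p-1)` -/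
theorem DKSetup.indep (h : DKSetup O z p P₀) (hfr : Module.finrank K L = p)
    (c : Fin p → K) (hc : ∀ j, c j ∈ O)
    (hsum : (∑ j, algebraMap K L (c j) * z ^ (j : ℕ)) ∈ (h.valSub hfr).nonunits) :
    ∀ j, c j ∈ O.nonunits := by
  intro j
  by_contra hj
  have hj' : (⟨c j, hc j⟩ : O) ∉ IsLocalRing.maximalIdeal O := fun hm =>
    hj (ValuationSubring.coe_mem_nonunits_iff.mpr hm)
  have hu := h.isUnit_dkPoly (fun j => (⟨c j, hc j⟩ : O)) j hj'
  obtain ⟨h0, hinv⟩ := dk_inv_mem_of_isUnit _ hu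
  rw [dk_coe_aeval, dkPoly_aeval] at h0 hinv
  rw [ValuationSubring.mem_nonunits_iff_or] at hsum
  rcases hsum with hs | hs
  · exact h0 hs
  · exact hs hinv

/-- `W = O[z]` in coordinates -/
theorem DKSetup.repr (h : DKSetup O z p P₀) (hfr : Module.finrank K L = p)
    (w : L) (hw : w ∈ h.valSub hfr) :
    ∃ c : Fin p → K, (∀ j, c j ∈ O) ∧ w = ∑ j, algebraMap K L (c j) * z ^ (j : ℕ) := by
  obtain ⟨Q, hQ⟩ := dk_exists_aeval O z ⟨w, hw⟩
  have hQ' : aeval z Q = w := by
    rw [← dk_coe_aeval, hQ]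
  have hmod : aeval z (Q %ₘ P₀) = w := by
    rw [aeval_modByMonic_eq_self_of_root h.root, hQ']
  have hP1 : P₀ ≠ 1 := by
    intro h1
    have := h.natDegree
    rw [h1, natDegree_one] at this
    exact absurd this.symm h.pos.ne'
  have hdeg : (Q %ₘ P₀).natDegree < p := by
    rw [← h.natDegree]
    exact natDegree_modByMonic_lt Q h.monic hP1
  refine ⟨fun j => (((Q %ₘ P₀).coeff (j : ℕ) : O) : K), fun j => Subtype.mem _, ?_⟩
  rw [← hmod, aeval_eq_sum_range' hdeg, Finset.sum_range]
  refine Finset.sum_congr rfl fun j _ => ?_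
  rw [Algebra.smul_def]
  rfl

/-- the uniformiser of `O` is a uniformiser of `W` -/
theorem DKSetup.div_mem (h : DKSetup O z p P₀) (hfr : Module.finrank K L = p)
    (π : K) (hπ0 : π ≠ 0) (hπO : π ∈ O) (hπ : ∀ y ∈ O.nonunits, y / π ∈ O)
    (y : L) (hy : y ∈ (h.valSub hfr).nonunits) :
    y / algebraMap K L π ∈ h.valSub hfr := by
  obtain ⟨G, hG, rfl⟩ := (h.mem_nonunits_valSub_iff hfr y).mp hy
  have hdiv : ∀ i, (⟨π, hπO⟩ : O) ∣ G.coeff i := by
    intro i
    have h1 : ((G.coeff i : O) : K) ∈ O.nonunits :=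
      ValuationSubring.coe_mem_nonunits_iff.mpr (hG i)
    refine ⟨⟨(G.coeff i : K) / π, hπ _ h1⟩, Subtype.ext ?_⟩
    show (G.coeff i : K) = π * ((G.coeff i : K) / π)
    field_simp
  obtain ⟨H, hH⟩ := (C_dvd_iff_dvd_coeff (⟨π, hπO⟩ : O) G).mpr hdiv
  have h1 : aeval z G = algebraMap K L π * aeval z H := by
    rw [hH, map_mul, aeval_C]
    rfl
  have hπ' : algebraMap K L π ≠ 0 := (_root_.map_ne_zero _).mpr hπ0
  rw [h1, mul_div_assoc, mul_comm, div_mul_cancel₀ _ hπ']
  rw [DKSetup.mem_valSub]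
  exact aeval_mem_adjoin_singleton O z

theorem DKSetup.isNoetherianRing_adjoin (h : DKSetup O z p P₀) [IsNoetherianRing O] :
    IsNoetherianRing ↥(Algebra.adjoin O ({z} : Set L)) := by
  have hfg : (Algebra.adjoin O ({z} : Set L)).toSubmodule.FG := h.isIntegral.fg_adjoin_singleton
  have hfin : Module.Finite O ↥(Algebra.adjoin O ({z} : Set L)) := Module.Finite.of_fg hfg
  have hN : IsNoetherian O ↥(Algebra.adjoin O ({z} : Set L)) :=
    isNoetherian_of_isNoetherianRing_of_finite O _
  exact isNoetherian_of_tower O hN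

theorem DKSetup.isPrincipalIdealRing_valSub (h : DKSetup O z p P₀)
    (hfr : Module.finrank K L = p) [IsNoetherianRing O]
    (π : K) (hπ0 : π ≠ 0) (hπ : π ∈ O.nonunits) :
    IsPrincipalIdealRing ↥(h.valSub hfr) := by
  have hnoeB : IsNoetherianRing ↥(Algebra.adjoin O ({z} : Set L)) := h.isNoetherianRing_adjoin
  let e : ↥(Algebra.adjoin O ({z} : Set L)) →+* ↥(h.valSub hfr) :=
    { toFun := fun r => ⟨r.1, r.2⟩
      map_one' := rfl
      map_mul' := fun _ _ => rfl
      map_zero' := rfl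
      map_add' := fun _ _ => rfl }
  have he : Function.Surjective e := fun v => ⟨⟨v.1, v.2⟩, rfl⟩
  have hnoe : IsNoetherianRing ↥(h.valSub hfr) := isNoetherianRing_of_surjective _ _ e he
  have hπW : algebraMap K L π ∈ (h.valSub hfr).nonunits := by
    rw [← mem_nonunits_comap, h.comap_valSub hfr]
    exact hπ
  have hnf : ¬ IsField ↥(h.valSub hfr) := by
    rw [IsLocalRing.isField_iff_maximalIdeal_eq]
    intro hbot
    have h1 : (⟨algebraMap K L π, (h.valSub hfr).nonunits_subset hπW⟩ : ↥(h.valSub hfr))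
        ∈ IsLocalRing.maximalIdeal ↥(h.valSub hfr) :=
      ValuationSubring.coe_mem_nonunits_iff.mp hπW
    rw [hbot, Ideal.mem_bot] at h1
    have h2 := congrArg Subtype.val h1
    exact (_root_.map_ne_zero (algebraMap K L)).mpr hπ0 h2
  have hval : ValuationRing ↥(h.valSub hfr) := inferInstance
  have htfae : ValuationRing ↥(h.valSub hfr) ↔ IsDiscreteValuationRing ↥(h.valSub hfr) :=
    (IsDiscreteValuationRing.TFAE _ hnf).out 1 0
  have hdvr : IsDiscreteValuationRing ↥(h.valSub hfr) := htfae.mp hval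
  infer_instance

theorem DKSetup.le_of_comap (h : DKSetup O z p P₀)
    (V : ValuationSubring L) (hV : V.comap (algebraMap K L) = O) (l : L)
    (hl : l ∈ Algebra.adjoin O ({z} : Set L)) : l ∈ V := by
  induction hl using Algebra.adjoin_induction with
  | mem x hx =>
    rw [Set.mem_singleton_iff] at hx
    rw [hx]
    exact mem_of_isIntegral O V hV z h.isIntegral
  | algebraMap r =>
    have h1 : (r : K) ∈ V.comap (algebraMap K L) := by
      rw [hV]
      exact r.2
    exact h1
  | add x y _ _ hx hy => exact add_mem hx hy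
  | mul x y _ _ hx hy => exact mul_mem hx hy

theorem DKSetup.unique (h : DKSetup O z p P₀) (hfr : Module.finrank K L = p)
    (V : ValuationSubring L) (hV : V.comap (algebraMap K L) = O) : V = h.valSub hfr := by
  refine SetLike.ext fun l => ?_
  rw [DKSetup.mem_valSub]
  constructor
  · intro hl
    by_cases hl0 : l = 0
    · rw [hl0]
      exact zero_mem _
    obtain ⟨d, hd, u, hu0, hu, hui, rfl⟩ := h.decomp hfr l hl0
    have h1 : algebraMap K L d ∈ V := by
      have h2 : algebraMap K L d = algebraMap K L d * u * u⁻¹ := by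
        rw [mul_assoc, mul_inv_cancel₀ hu0, mul_one]
      rw [h2]
      exact mul_mem hl (h.le_of_comap V hV _ hui)
    have h3 : d ∈ O := by
      rw [← hV]
      exact h1
    exact mul_mem (dk_algebraMap_mem d h3) hu
  · exact h.le_of_comap V hV l

/-- pure inseparability of the residue extension -/
theorem dk_insep_core (W : ValuationSubring L) (hW : W.comap (algebraMap K L) = O)
    (hp : p.Prime) (hpO : (p : K) ∈ O.nonunits) (a : K) (ha : a ∈ O) (hz : z ∈ W)
    (hza : z ^ p - algebraMap K L a ∈ W.nonunits) (w : L)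
    (hw : w ∈ Algebra.adjoin O ({z} : Set L)) :
    w ∈ W ∧ ∃ b ∈ O, w ^ p - algebraMap K L b ∈ W.nonunits := by
  have hOW : ∀ x : K, x ∈ O → algebraMap K L x ∈ W := by
    intro x hx
    have h1 : x ∈ W.comap (algebraMap K L) := by
      rw [hW]
      exact hx
    exact h1
  have hpW : ((p : ℕ) : L) ∈ W.nonunits := by
    have h1 : algebraMap K L (p : K) ∈ W.nonunits := by
      rw [← mem_nonunits_comap, hW]
      exact hpO
    rwa [map_natCast] at h1
  induction hw using Algebra.adjoin_induction with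
  | mem x hx =>
    rw [Set.mem_singleton_iff] at hx
    rw [hx]
    exact ⟨hz, a, ha, hza⟩
  | algebraMap r =>
    refine ⟨hOW _ r.2, (r : K) ^ p, pow_mem r.2 p, ?_⟩
    have h1 : (algebraMap (↥O) L r) ^ p - algebraMap K L ((r : K) ^ p) = 0 := by
      rw [map_pow]
      exact sub_self _
    rw [h1]
    exact zero_mem_nonunits W
  | add x y _ _ hx hy =>
    obtain ⟨hxW, b₁, hb₁, h₁⟩ := hx
    obtain ⟨hyW, b₂, hb₂, h₂⟩ := hy
    refine ⟨add_mem hxW hyW, b₁ + b₂, add_mem hb₁ hb₂, ?_⟩
    obtain ⟨r, hr⟩ := exists_add_pow_prime_eq hp (⟨x, hxW⟩ : W) (⟨y, hyW⟩ : W)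
    have hr' : (x + y) ^ p = x ^ p + y ^ p + (p : L) * x * y * (r : L) := by
      have := congrArg Subtype.val hr
      simpa using this
    have h3 : (x + y) ^ p - algebraMap K L (b₁ + b₂)
        = (x ^ p - algebraMap K L b₁) + (y ^ p - algebraMap K L b₂)
          + (p : L) * (x * y * (r : L)) := by
      rw [hr', map_add]
      ring
    rw [h3]
    exact add_mem_nonunits W (add_mem_nonunits W h₁ h₂)
      (mul_mem_nonunits W hpW (mul_mem (mul_mem hxW hyW) r.2))
  | mul x y _ _ hx hy =>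
    obtain ⟨hxW, b₁, hb₁, h₁⟩ := hx
    obtain ⟨hyW, b₂, hb₂, h₂⟩ := hy
    refine ⟨mul_mem hxW hyW, b₁ * b₂, mul_mem hb₁ hb₂, ?_⟩
    have h3 : (x * y) ^ p - algebraMap K L (b₁ * b₂)
        = (x ^ p - algebraMap K L b₁) * y ^ p + (y ^ p - algebraMap K L b₂) * algebraMap K L b₁ := by
      rw [map_mul]
      ring
    rw [h3]
    exact add_mem_nonunits W (mul_mem_nonunits W h₁ (pow_mem hyW p))
      (mul_mem_nonunits W h₂ (hOW _ hb₁))

/-- `z ^ p ≡ a` modulo the maximal ideal of any valuation ring above `O` containing `z` -/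
theorem dk_pow_sub_mem (W : ValuationSubring L) (hW : W.comap (algebraMap K L) = O)
    (P : K[X]) (a : K) (hPz : aeval z P = 0) (hz : z ∈ W)
    (hG : ∀ i, (P - (X ^ p - C a)).coeff i ∈ O.nonunits) :
    z ^ p - algebraMap K L a ∈ W.nonunits := by
  have h1 : z ^ p - algebraMap K L a = - aeval z (P - (X ^ p - C a)) := by
    rw [map_sub, hPz, map_sub, map_pow, aeval_X, aeval_C]
    ring
  rw [h1]
  apply neg_mem_nonunits
  rw [aeval_eq_sum_range]
  apply sum_mem_nonunits
  intro i _
  rw [Algebra.smul_def]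
  apply mul_mem_nonunits W _ (pow_mem hz i)
  rw [← mem_nonunits_comap, hW]
  exact hG i

end DKVal

/-- **SS2-A9 DK-INSEP.** -/
theorem dkInsep : Fermat.Agent.H11.SS2.DKInsepStatement := by
  intro K L _ _ _ _ O π hPIR hπ p hp hpO hfr P z a hPm hPd hPc hPz ha hG hnp
  obtain ⟨hπ0, hπnu, hπdiv⟩ := hπ
  have hnoe : IsNoetherianRing O := inferInstance
  -- the integral model of `P`
  have hlift : P ∈ Polynomial.lifts (algebraMap O K) := by
    rw [Polynomial.lifts_iff_coeff_lifts]
    intro n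
    exact ⟨⟨P.coeff n, hPc n⟩, rfl⟩
  obtain ⟨P₀, hP₀map, hP₀deg, hP₀m⟩ := Polynomial.lifts_and_natDegree_eq_and_monic hlift hPm
  have hroot : aeval z P₀ = 0 := by
    rw [← Polynomial.aeval_map_algebraMap K, hP₀map]
    exact hPz
  -- its reduction
  have hred : P₀.map (IsLocalRing.residue O)
      = X ^ p - C (IsLocalRing.residue O (⟨a, ha⟩ : O)) := by
    have h0 : (P₀ - (X ^ p - C (⟨a, ha⟩ : O))).map (IsLocalRing.residue O) = 0 := by
      apply dk_map_eq_zero_of_coeff_mem
      intro i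
      rw [← ValuationSubring.coe_mem_nonunits_iff]
      have h1 : (((P₀ - (X ^ p - C (⟨a, ha⟩ : O))).coeff i : O) : K)
          = (P - (X ^ p - C a)).coeff i := by
        rw [← hP₀map]
        have h2 : (Polynomial.map (algebraMap O K) P₀ - (X ^ p - C a))
            = (P₀ - (X ^ p - C (⟨a, ha⟩ : O))).map (algebraMap O K) := by
          rw [Polynomial.map_sub, Polynomial.map_sub, Polynomial.map_pow, map_X, map_C]
          rfl
        rw [h2, coeff_map]
        rfl
      rw [h1]
      exact hG i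
    rw [Polynomial.map_sub, sub_eq_zero] at h0
    rw [h0, Polynomial.map_sub, Polynomial.map_pow, map_X, map_C]
  have hirr : Irreducible (P₀.map (IsLocalRing.residue O)) := by
    rw [hred]
    refine (X_pow_sub_C_irreducible_iff_of_prime hp).mpr fun b hb => ?_
    obtain ⟨b₀, rfl⟩ := IsLocalRing.residue_surjective b
    apply hnp (b₀ : K) b₀.2
    have h1 : (⟨a, ha⟩ - b₀ ^ p : O) ∈ IsLocalRing.maximalIdeal O := by
      rw [← IsLocalRing.residue_eq_zero_iff, map_sub, map_pow, hb, sub_self]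
    exact ValuationSubring.coe_mem_nonunits_iff.mpr h1
  have h : DKSetup O z p P₀ := ⟨hP₀m, by rw [hP₀deg, hPd], hroot, hirr⟩
  have hcomap := h.comap_valSub hfr
  have hzW : z ∈ h.valSub hfr := by
    rw [DKSetup.mem_valSub]
    exact Algebra.subset_adjoin rfl
  refine ⟨h.valSub hfr, h.isPrincipalIdealRing_valSub hfr π hπ0 hπnu, hcomap,
    fun V hV => h.unique hfr V hV, ⟨(_root_.map_ne_zero _).mpr hπ0, ?_, ?_⟩,
    fun c hc hsum => h.indep hfr c hc hsum, fun w hw => h.repr hfr w hw, ?_⟩
  · rw [← mem_nonunits_comap, hcomap]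
    exact hπnu
  · intro y hy
    exact h.div_mem hfr π hπ0 (O.nonunits_subset hπnu) hπdiv y hy
  · intro w hw
    exact (dk_insep_core (h.valSub hfr) hcomap hp hpO a ha hzW
      (dk_pow_sub_mem (h.valSub hfr) hcomap P a hPz hzW hG) w hw).2

end Fermat.Agent.H46.SS2
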