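/-
P-SS2 row 1075 (SS2-C5f-1 PHI-SHARP), helper46: SHARP pole count for the modular polynomial.

For Hecke data `D` of prime level `q` over a field `k` of characteristic zero, `Φ = Σ_j φ_j T^j`,
base `J₁ = j(t^q)`, roots `j(t^(q²))` (pole order `q²`) and `j(ζ^b t)` (pole order `1`):
* `coeff_map_poleLE_sharp` : `φ_j(J₁)` has a pole of order `≤ q² + q - j`;
* `natDegree_coeff_le_sharp` : `deg φ_j ≤ q` for `1 ≤ j`, `deg φ_0 ≤ q + 1`;
* `coeff_q_coeff_q` : `φ_q = - X^q + (lower)`;
* `coeff_zero_coeff_succ` : `φ_0 = X^(q+1) + (lower)`.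
-/
import Mathlib
import Fermat.Agent.H46.SS.PoleBound

set_option autoImplicit false
set_option linter.unusedSectionVars false

noncomputable section

open Polynomial ModularCurve

namespace Fermat.Agent.H46.SS2

open Fermat.Agent.H27 Fermat.Agent.H46.SS

/-! ### Leading coefficients of products -/

section lead

variable {R : Type*} [CommRing R]

theorem poleLE_one' : PoleLE 0 (1 : LaurentSeries R) := by
  apply poleLE_of_coeff
  intro n hn
  rw [HahnSeries.coeff_one, if_neg]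
  intro h0
  rw [h0] at hn
  simp at hn

theorem coeff_mul_of_poleLE {a b : ℤ} {f g : LaurentSeries R} (hf : PoleLE a f)
    (hg : PoleLE b g) : (f * g).coeff (-(a + b)) = f.coeff (-a) * g.coeff (-b) := by
  rw [HahnSeries.coeff_mul]
  rw [Finset.sum_eq_single ((-a, -b) : ℤ × ℤ)]
  · rintro ⟨i, j⟩ hij hne
    rw [Finset.mem_antidiagonal] at hij
    obtain ⟨hi, hj, hsum⟩ := hij
    have hi' : -a ≤ i := by
      by_contra h
      push Not at h
      exact hi (hf.coeff h)
    have hj' : -b ≤ j := by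
      by_contra h
      push Not at h
      exact hj (hg.coeff h)
    exfalso
    apply hne
    simp only at hsum
    have h1 : i = -a := by linarith
    have h2 : j = -b := by linarith
    rw [h1, h2]
  · intro hnot
    rw [Finset.mem_antidiagonal] at hnot
    by_cases h1 : f.coeff (-a) = 0
    · rw [h1, zero_mul]
    · by_cases h2 : g.coeff (-b) = 0
      · rw [h2, mul_zero]
      · exfalso
        exact hnot ⟨h1, h2, by ring⟩

theorem prod_poleLE_and_coeff {ι : Type*} (S : Finset ι) (r : ι → LaurentSeries R) (m : ι → ℤ)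
    (hr : ∀ i ∈ S, PoleLE (m i) (r i)) :
    PoleLE (∑ i ∈ S, m i) (∏ i ∈ S, r i) ∧
      (∏ i ∈ S, r i).coeff (-(∑ i ∈ S, m i)) = ∏ i ∈ S, (r i).coeff (-(m i)) := by
  classical
  induction S using Finset.induction_on with
  | empty =>
    rw [Finset.prod_empty, Finset.sum_empty, Finset.prod_empty]
    refine ⟨poleLE_one', ?_⟩
    rw [neg_zero, HahnSeries.coeff_one, if_pos rfl]
  | insert a S ha ih =>
    obtain ⟨ih1, ih2⟩ := ih fun i hi => hr i (Finset.mem_insert_of_mem hi)
    have hra := hr a (Finset.mem_insert_self a S)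
    rw [Finset.prod_insert ha, Finset.sum_insert ha, Finset.prod_insert ha]
    exact ⟨hra.mul ih1, by rw [coeff_mul_of_poleLE hra ih1, ih2]⟩

end lead

/-! ### Evaluation at the base -/

section base

variable (q : ℕ) [NeZero q] {k : Type*} [Field k] [CharZero k]

/-- For `deg φ ≤ d` the coefficient of `φ(J₁)` in degree `-q d` is the coefficient of `X^d`. -/
theorem coeff_evalAt_baseS_of_le (φ : Polynomial ℤ) (d : ℕ) (hd : φ.natDegree ≤ d) :
    (evalAt (baseS k q) φ).coeff (-((q : ℤ) * d)) = ((φ.coeff d : ℤ) : k) := by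
  rcases Nat.eq_or_lt_of_le hd with h | h
  · rw [← h, coeff_evalAt_baseS]
    rfl
  · have hX : (X ^ d : Polynomial ℤ).natDegree = d := natDegree_X_pow d
    have h1 : (φ + X ^ d).natDegree = d := by
      rw [natDegree_add_eq_right_of_natDegree_lt (by rw [hX]; exact h), hX]
    have h2 : (φ + X ^ d).leadingCoeff = 1 := by
      rw [leadingCoeff, h1, coeff_add, coeff_X_pow, if_pos rfl, coeff_eq_zero_of_natDegree_lt h,
        zero_add]
    have h3 := coeff_evalAt_baseS (k := k) q (φ + X ^ d)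
    rw [h1, h2, map_add, HahnSeries.coeff_add] at h3
    have h4 := coeff_evalAt_baseS (k := k) q (X ^ d : Polynomial ℤ)
    rw [hX, leadingCoeff_X_pow] at h4
    rw [h4] at h3
    rw [coeff_eq_zero_of_natDegree_lt h, Int.cast_zero]
    have h5 : (evalAt (baseS k q) φ).coeff (-((q : ℤ) * d)) + ((1 : ℤ) : k) = ((1 : ℤ) : k) := h3
    exact add_eq_right.mp h5

/-- A pole bound for `φ(J₁)` bounds the degree of `φ`. -/
theorem natDegree_le_of_poleLE (φ : Polynomial ℤ) (m : ℤ) (hm : 0 ≤ m)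
    (h : PoleLE m (evalAt (baseS k q) φ)) : (q : ℤ) * φ.natDegree ≤ m := by
  by_cases h0 : φ = 0
  · rw [h0, natDegree_zero]
    simpa using hm
  by_contra hcon
  rw [not_le] at hcon
  have hlt : -((q : ℤ) * φ.natDegree) < -m := by linarith
  have h1 := h.coeff hlt
  rw [coeff_evalAt_baseS] at h1
  have h2 : φ.leadingCoeff = 0 := by exact_mod_cast h1
  exact h0 (leadingCoeff_eq_zero.mp h2)

end base

/-! ### The sharp pole count -/

section sharp

variable (q : ℕ) [NeZero q] {k : Type*} [Field k] [CharZero k]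

omit [CharZero k] in
theorem poleLE_rootInf : PoleLE ((q : ℤ) * q) (rootInf k q) := by
  have h := ((poleLE_jqModC (R := k)).qExpand q).qExpand q
  rw [mul_one] at h
  exact h

omit [CharZero k] in
theorem coeff_rootInf : (rootInf k q).coeff (-((q : ℤ) * q)) = 1 := by
  have h1 : -((q : ℤ) * q) = (q : ℤ) * ((q : ℤ) * (-1)) := by ring
  rw [h1, rootInf, qExpand_coeff_mul, qExpand_coeff_mul]
  exact coeff_jqModC_neg_one k

omit [CharZero k] in
theorem poleLE_rootFin (ζ : kˣ) : PoleLE 1 (rootFin (k := k) ζ) :=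
  (poleLE_jqModC (R := k)).twist ζ

omit [CharZero k] in
theorem coeff_rootFin (ζ : kˣ) : (rootFin (k := k) ζ).coeff (-1) = ((ζ⁻¹ : kˣ) : k) := by
  rw [rootFin, twist_coeff, coeff_jqModC_neg_one, mul_one, zpow_neg_one]

/-- the finite part of the factorisation -/
def finPart (ζ : kˣ) : Polynomial (LaurentSeries k) :=
  ∏ b ∈ Finset.range q, (X - C (rootFin (k := k) (ζ ^ b)))

omit [CharZero k] in
theorem finPart_coeff_poleLE (ζ : kˣ) (i : ℕ) :
    PoleLE ((q : ℤ) - i) ((finPart q ζ).coeff i) := by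
  have h := coeff_prod_poleLE (Finset.range q) (fun b => rootFin (k := k) (ζ ^ b)) 1
    (fun _ _ => poleLE_rootFin _) i
  rw [Finset.card_range, one_mul] at h
  exact h

omit [CharZero k] in
theorem finPart_monic (ζ : kˣ) : (finPart q ζ).Monic :=
  monic_prod_of_monic _ _ fun b _ => monic_X_sub_C _

omit [CharZero k] in
theorem finPart_natDegree (ζ : kˣ) : (finPart q ζ).natDegree = q := by
  unfold finPart
  rw [natDegree_prod_of_monic _ _ fun b _ => monic_X_sub_C _]
  simp

omit [CharZero k] in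
theorem finPart_coeff_q (ζ : kˣ) : (finPart q ζ).coeff q = 1 := by
  have h := (finPart_monic q ζ).coeff_natDegree
  rwa [finPart_natDegree] at h

omit [CharZero k] in
theorem finPart_coeff_zero (ζ : kˣ) :
    (finPart q ζ).coeff 0 = ∏ b ∈ Finset.range q, (-(rootFin (k := k) (ζ ^ b))) := by
  unfold finPart
  rw [coeff_zero_eq_eval_zero, eval_prod]
  refine Finset.prod_congr rfl fun b _ => ?_
  rw [eval_sub, eval_X, eval_C, zero_sub]

omit [CharZero k] in
theorem finPart_coeff_zero_coeff (ζ : kˣ) :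
    ((finPart q ζ).coeff 0).coeff (-(q : ℤ))
      = ∏ b ∈ Finset.range q, (-(((ζ ^ b)⁻¹ : kˣ) : k)) := by
  rw [finPart_coeff_zero]
  have h := (prod_poleLE_and_coeff (Finset.range q) (fun b => -(rootFin (k := k) (ζ ^ b)))
    (fun _ => (1 : ℤ)) (fun b _ => (poleLE_rootFin (ζ ^ b)).neg)).2
  rw [Finset.sum_const, Finset.card_range, nsmul_eq_mul, mul_one] at h
  rw [h]
  refine Finset.prod_congr rfl fun b _ => ?_
  rw [HahnSeries.coeff_neg, coeff_rootFin]

omit [CharZero k] in
theorem map_eq_finPart (ζ : kˣ) (D : HeckeDataOver q k ζ) :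
    D.Φ.map (evalAt (baseS k q)) = (X - C (rootInf k q)) * finPart q ζ :=
  D.Φ_factor

omit [CharZero k] in
theorem evalAt_coeff_succ (ζ : kˣ) (D : HeckeDataOver q k ζ) (j : ℕ) :
    evalAt (baseS k q) (D.Φ.coeff (j + 1))
      = (finPart q ζ).coeff j - rootInf k q * (finPart q ζ).coeff (j + 1) := by
  have h := congrArg (fun P => P.coeff (j + 1)) (map_eq_finPart q ζ D)
  simp only [coeff_map] at h
  rw [h, sub_mul, coeff_sub, coeff_X_mul, coeff_C_mul]

omit [CharZero k] in
theorem evalAt_coeff_zero (ζ : kˣ) (D : HeckeDataOver q k ζ) :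
    evalAt (baseS k q) (D.Φ.coeff 0) = - (rootInf k q * (finPart q ζ).coeff 0) := by
  have h := congrArg (fun P => P.coeff 0) (map_eq_finPart q ζ D)
  simp only [coeff_map] at h
  rw [h, sub_mul, coeff_sub, coeff_X_mul_zero, coeff_C_mul, zero_sub]

omit [CharZero k] in
/-- **Sharp pole count**: `φ_j(J₁)` has a pole of order at most `q² + q - j`. -/
theorem coeff_map_poleLE_sharp (ζ : kˣ) (D : HeckeDataOver q k ζ) (j : ℕ) :
    PoleLE ((q : ℤ) * q + q - j) (evalAt (baseS k q) (D.Φ.coeff j)) := by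
  have hq : (1 : ℤ) ≤ q := by exact_mod_cast Nat.pos_of_ne_zero (NeZero.ne q)
  cases j with
  | zero =>
    rw [evalAt_coeff_zero]
    refine (((poleLE_rootInf (k := k) q).mul (finPart_coeff_poleLE q ζ 0)).neg).mono ?_
    push_cast <;> linarith
  | succ j =>
    rw [evalAt_coeff_succ]
    refine PoleLE.sub ?_ ?_
    · refine (finPart_coeff_poleLE q ζ j).mono ?_
      push_cast <;> nlinarith
    · refine ((poleLE_rootInf (k := k) q).mul (finPart_coeff_poleLE q ζ (j + 1))).mono ?_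
      push_cast <;> linarith

/-- **Sharp degree bound**: `deg φ_j ≤ q` for `1 ≤ j`. -/
theorem natDegree_coeff_le_sharp (ζ : kˣ) (D : HeckeDataOver q k ζ) (j : ℕ) (hj : 1 ≤ j) :
    (D.Φ.coeff j).natDegree ≤ q := by
  by_cases hjq : j ≤ q + 1
  · have hq : (1 : ℤ) ≤ q := by exact_mod_cast Nat.pos_of_ne_zero (NeZero.ne q)
    have hjq' : (j : ℤ) ≤ q + 1 := by exact_mod_cast hjq
    have hj' : (1 : ℤ) ≤ j := by exact_mod_cast hj
    have h := natDegree_le_of_poleLE q (D.Φ.coeff j) _ (by nlinarith)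
      (coeff_map_poleLE_sharp q ζ D j)
    have h1 : (q : ℤ) * (D.Φ.coeff j).natDegree < (q : ℤ) * (q + 1) := by nlinarith
    have h2 : ((D.Φ.coeff j).natDegree : ℤ) < q + 1 := lt_of_mul_lt_mul_left h1 (by linarith)
    have h3 : (D.Φ.coeff j).natDegree < q + 1 := by exact_mod_cast h2
    omega
  · rw [coeff_eq_zero_of_natDegree_lt (by rw [D.Φ_natDegree]; omega), natDegree_zero]
    exact Nat.zero_le _

/-- `deg φ_0 ≤ q + 1`. -/
theorem natDegree_coeff_zero_le (ζ : kˣ) (D : HeckeDataOver q k ζ) :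
    (D.Φ.coeff 0).natDegree ≤ q + 1 := by
  have hq : (1 : ℤ) ≤ q := by exact_mod_cast Nat.pos_of_ne_zero (NeZero.ne q)
  have h := natDegree_le_of_poleLE q (D.Φ.coeff 0) _ (by push_cast; nlinarith)
    (coeff_map_poleLE_sharp q ζ D 0)
  push_cast at h
  have h1 : (q : ℤ) * (D.Φ.coeff 0).natDegree ≤ (q : ℤ) * (q + 1) := by linarith
  have h2 : ((D.Φ.coeff 0).natDegree : ℤ) ≤ q + 1 := le_of_mul_le_mul_left h1 (by linarith)
  exact_mod_cast h2

/-- `φ_q = - X^q + (lower)`. -/
theorem coeff_q_coeff_q (hq2 : 2 ≤ q) (ζ : kˣ) (D : HeckeDataOver q k ζ) :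
    (D.Φ.coeff q).coeff q = -1 := by
  obtain ⟨j, rfl⟩ : ∃ j, q = j + 1 := ⟨q - 1, by omega⟩
  have hdeg := natDegree_coeff_le_sharp (j + 1) ζ D (j + 1) (by omega)
  have h1 := coeff_evalAt_baseS_of_le (k := k) (j + 1) (D.Φ.coeff (j + 1)) (j + 1) hdeg
  rw [evalAt_coeff_succ, finPart_coeff_q, mul_one, HahnSeries.coeff_sub, coeff_rootInf] at h1
  have h2 : ((finPart (j + 1) ζ).coeff j).coeff (-(((j + 1 : ℕ) : ℤ) * ((j + 1 : ℕ) : ℤ))) = 0 := by
    apply (finPart_coeff_poleLE (j + 1) ζ j).coeff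
    push_cast
    have : (1 : ℤ) ≤ j := by
      have : 1 ≤ j := by omega
      exact_mod_cast this
    nlinarith
  rw [h2, zero_sub] at h1
  have h3 : (((D.Φ.coeff (j + 1)).coeff (j + 1) : ℤ) : k) = ((-1 : ℤ) : k) := by
    rw [← h1]
    push_cast
    rfl
  exact_mod_cast h3

omit [CharZero k] in
/-- the product of all `q`-th roots of unity -/
theorem prod_pow_primitive (hq : q.Prime) (ζ : kˣ) (hζ : IsPrimitiveRoot (ζ : k) q) :
    ((∏ b ∈ Finset.range q, ζ ^ b : kˣ) : k) = (-1) ^ (q + 1) := by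
  rw [Finset.prod_pow_eq_pow_sum]
  rcases hq.eq_two_or_odd' with h2 | hodd
  · subst h2
    have h1 : (∑ b ∈ Finset.range 2, b) = 1 := by decide
    rw [h1, pow_one]
    rw [hζ.eq_neg_one_of_two_right]
    norm_num
  · obtain ⟨m, hm⟩ := hodd
    have h1 : (∑ b ∈ Finset.range q, b) = q * m := by
      have h2 := Finset.sum_range_id_mul_two q
      have h3 : q - 1 = 2 * m := by omega
      rw [h3] at h2
      have h4 : (∑ b ∈ Finset.range q, b) * 2 = (q * m) * 2 := by rw [h2]; ring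
      exact Nat.eq_of_mul_eq_mul_right (by norm_num) h4
    rw [h1, pow_mul, Units.val_pow_eq_pow_val, Units.val_pow_eq_pow_val, hζ.pow_eq_one, one_pow]
    have h5 : q + 1 = 2 * (m + 1) := by omega
    rw [h5, pow_mul]
    norm_num

/-- `φ_0 = X^(q+1) + (lower)`. -/
theorem coeff_zero_coeff_succ (hq : q.Prime) (ζ : kˣ) (hζ : IsPrimitiveRoot (ζ : k) q)
    (D : HeckeDataOver q k ζ) : (D.Φ.coeff 0).coeff (q + 1) = 1 := by
  have hdeg := natDegree_coeff_zero_le q ζ D
  have h1 := coeff_evalAt_baseS_of_le (k := k) q (D.Φ.coeff 0) (q + 1) hdeg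
  have hexp : -((q : ℤ) * ((q + 1 : ℕ) : ℤ)) = -((q : ℤ) * q + q) := by
    push_cast
    ring
  rw [evalAt_coeff_zero, HahnSeries.coeff_neg, hexp,
    coeff_mul_of_poleLE (poleLE_rootInf (k := k) q)
      ((finPart_coeff_poleLE q ζ 0).mono (by push_cast; linarith)),
    coeff_rootInf, one_mul, finPart_coeff_zero_coeff] at h1
  have h2 : ∏ b ∈ Finset.range q, (-(((ζ ^ b)⁻¹ : kˣ) : k))
      = (-1) ^ q * (((∏ b ∈ Finset.range q, ζ ^ b : kˣ)⁻¹ : kˣ) : k) := by
    rw [← Finset.prod_inv_distrib, Units.coe_prod]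
    rw [show (fun b => -(((ζ ^ b)⁻¹ : kˣ) : k)) = fun b => (-1 : k) * (((ζ ^ b)⁻¹ : kˣ) : k) from
      funext fun b => by ring]
    rw [Finset.prod_mul_distrib, Finset.prod_const, Finset.card_range]
  rw [h2, Units.val_inv_eq_inv_val, prod_pow_primitive q hq ζ hζ] at h1
  have h3 : -((-1 : k) ^ q * ((-1 : k) ^ (q + 1))⁻¹) = 1 := by
    have h4 : ((-1 : k) ^ (q + 1)) = -((-1 : k) ^ q) := by rw [pow_succ]; ring
    rw [h4]
    have h5 : ((-1 : k) ^ q) ≠ 0 := pow_ne_zero _ (by norm_num)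
    field_simp
  rw [h3] at h1
  have h6 : (((D.Φ.coeff 0).coeff (q + 1) : ℤ) : k) = ((1 : ℤ) : k) := by
    rw [← h1]
    push_cast
    rfl
  exact_mod_cast h6

end sharp

end Fermat.Agent.H46.SS2
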