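/-
P-SS2 row 1075 (SS2-C5f-1 PHI-SHARP), helper46:
`phiSharp (q) (hq : q.Prime) : Fermat.Agent.H22.SS2.PhiSharpStatement q`.

The modular polynomial of prime level `q` in Kronecker form `Φ = (T - X^q)(T^q - X) + q Ψ` with the
sharp bounds `deg_T Ψ ≤ q`, `deg_X Ψ ≤ q`, no term `X^q T^q`, and the two modular equations.
-/
import Mathlib
import Fermat.Agent.H22.SS2.Cusp11Interfaces
import Fermat.Agent.H46.SS2.PhiSharpPole
import Fermat.Agent.H8.SS.KroneckerDelta
import Fermat.Agent.H42.KroneckerFormal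
import Fermat.Agent.H17.HeckeDataComplex
import Fermat.Agent.H89.ESDA3Fin
import Fermat.Agent.H27.Igusa.Geom
import Fermat.Agent.H67.IgusaTransfer
import Fermat.Agent.H27.KLGB.Integral

set_option autoImplicit false
set_option linter.unusedSectionVars false

noncomputable section

open Polynomial ModularCurve

namespace Fermat.Agent.H46.SS2

open Fermat.Agent.H27 Fermat.Agent.H42 Fermat.Agent.H46.SS

section kron

variable (q : ℕ)

/-- the Kronecker polynomial, expanded -/
theorem kronExpand :
    ((X - C (X ^ q)) * (X ^ q - C X) : Polynomial (Polynomial ℤ))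
      = X ^ (q + 1) - C X * X - C (X ^ q) * X ^ q + C (X ^ (q + 1)) := by
  have h : (C (X ^ (q + 1)) : Polynomial (Polynomial ℤ)) = C (X ^ q) * C X := by
    rw [← C_mul, pow_succ]
  rw [h]
  ring

theorem kronExpand_coeff (b : ℕ) :
    ((X - C (X ^ q)) * (X ^ q - C X) : Polynomial (Polynomial ℤ)).coeff b
      = (if b = q + 1 then 1 else 0) - (if b = 1 then X else 0) - (if b = q then X ^ q else 0)
        + (if b = 0 then X ^ (q + 1) else 0) := by
  rw [kronExpand, coeff_add, coeff_sub, coeff_sub, coeff_X_pow, coeff_C_mul_X, coeff_C_mul_X_pow,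
    coeff_C]

end kron

/-- **SS2-C5f-1 PHI-SHARP.** -/
theorem phiSharp (q : ℕ) [NeZero q] (hq : q.Prime) : Fermat.Agent.H22.SS2.PhiSharpStatement q := by
  haveI : Fact q.Prime := ⟨hq⟩
  have hq2 : 2 ≤ q := hq.two_le
  have hqZ : (q : ℤ) ≠ 0 := by exact_mod_cast hq.ne_zero
  have hqC : (q : ℂ) ≠ 0 := Nat.cast_ne_zero.mpr hq.ne_zero
  obtain ⟨ζ, hζ⟩ := Fermat.Agent.H89.exists_primitive_root_unit' ℂ q hqC
  obtain ⟨D⟩ := Fermat.Agent.H17.hasHeckeData_complex q hq ζ hζ
  obtain ⟨Ψ, hΨ⟩ := Fermat.Agent.H8.SS.exists_kronecker_remainder q D.Φ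
    (kronecker_of_heckeDataOver_charZero q ζ hζ D)
  have hΨ' : D.Φ = (X - C (X ^ q)) * (X ^ q - C X) + C (C (q : ℤ)) * Ψ := hΨ
  -- coefficientwise relation
  have hrel : ∀ b n : ℕ, (q : ℤ) * (Ψ.coeff b).coeff n
      = (D.Φ.coeff b).coeff n
        - (((X - C (X ^ q)) * (X ^ q - C X) : Polynomial (Polynomial ℤ)).coeff b).coeff n := by
    intro b n
    have h1 := congrArg (fun P => (P.coeff b).coeff n) hΨ'
    simp only [coeff_add, coeff_C_mul] at h1
    rw [h1]
    ring
  have hzero : ∀ b n : ℕ, (D.Φ.coeff b).coeff n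
      = (((X - C (X ^ q)) * (X ^ q - C X) : Polynomial (Polynomial ℤ)).coeff b).coeff n →
      (Ψ.coeff b).coeff n = 0 := by
    intro b n h
    have h1 := hrel b n
    rw [h, sub_self] at h1
    rcases mul_eq_zero.mp h1 with h2 | h2
    · exact absurd h2 hqZ
    · exact h2
  -- the leading data of `Φ`
  have hΦtop : D.Φ.coeff (q + 1) = 1 := by
    have h := D.Φ_monic.coeff_natDegree
    rwa [D.Φ_natDegree] at h
  have hΦhigh : ∀ b, q + 1 < b → D.Φ.coeff b = 0 := fun b hb =>
    coeff_eq_zero_of_natDegree_lt (by rw [D.Φ_natDegree]; exact hb)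
  have hdegΦ : ∀ b, 1 ≤ b → (D.Φ.coeff b).natDegree ≤ q := fun b hb =>
    natDegree_coeff_le_sharp q ζ D b hb
  have hdegΦ0 : (D.Φ.coeff 0).natDegree ≤ q + 1 := natDegree_coeff_zero_le q ζ D
  have hlead0 : (D.Φ.coeff 0).coeff (q + 1) = 1 := coeff_zero_coeff_succ q hq ζ hζ D
  have hleadq : (D.Φ.coeff q).coeff q = -1 := coeff_q_coeff_q q hq2 ζ D
  -- `Ψ` has no coefficients of `X`-degree `> q`
  have hΨcoeff : ∀ b n : ℕ, q < n → (Ψ.coeff b).coeff n = 0 := by
    intro b n hn
    apply hzero
    rw [kronExpand_coeff]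
    rcases Nat.eq_zero_or_pos b with hb0 | hbpos
    · subst hb0
      rw [if_neg (by omega), if_neg (by omega), if_neg (by omega), if_pos rfl]
      simp only [zero_sub, sub_zero, neg_zero, zero_add, coeff_X_pow]
      rcases Nat.eq_or_lt_of_le (Nat.succ_le_of_lt hn) with h1 | h1
      · rw [← h1, if_pos rfl]
        exact hlead0
      · rw [if_neg (by omega)]
        exact coeff_eq_zero_of_natDegree_lt (lt_of_le_of_lt hdegΦ0 h1)
    · rw [coeff_eq_zero_of_natDegree_lt (lt_of_le_of_lt (hdegΦ b hbpos) hn)]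
      rw [if_neg (by omega : ¬ b = 0), add_zero]
      symm
      by_cases h1 : b = q + 1
      · rw [if_pos h1, if_neg (by omega), if_neg (by omega)]
        simp only [sub_zero]
        rw [coeff_one, if_neg (by omega)]
      · rw [if_neg h1]
        by_cases h2 : b = 1
        · rw [if_pos h2, if_neg (by omega)]
          simp only [zero_sub, sub_zero, coeff_neg, coeff_X]
          rw [if_neg (by omega), neg_zero]
        · rw [if_neg h2]
          by_cases h3 : b = q
          · rw [if_pos h3]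
            simp only [zero_sub, sub_zero, coeff_neg, coeff_X_pow]
            rw [if_neg (by omega), neg_zero]
          · rw [if_neg h3]
            simp
  have hΨhigh : ∀ b, q < b → Ψ.coeff b = 0 := by
    intro b hb
    ext n
    rw [coeff_zero]
    apply hzero
    rw [kronExpand_coeff]
    rcases Nat.eq_or_lt_of_le (Nat.succ_le_of_lt hb) with h1 | h1
    · rw [← h1, hΦtop, if_pos rfl, if_neg (by omega), if_neg (by omega), if_neg (by omega)]
      simp
    · rw [hΦhigh b h1, if_neg (by omega), if_neg (by omega), if_neg (by omega),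
        if_neg (by omega)]
      simp
  refine ⟨D.Φ, Ψ, D.Φ_monic, D.Φ_natDegree, hΨ', ?_, ?_, ?_, ?_⟩
  · exact natDegree_le_iff_coeff_eq_zero.mpr fun b hb => hΨhigh b hb
  · intro b
    exact natDegree_le_iff_coeff_eq_zero.mpr fun n hn => hΨcoeff b n hn
  · apply hzero
    rw [hleadq, kronExpand_coeff, if_neg (by omega), if_neg (by omega), if_pos rfl,
      if_neg (by omega)]
    simp
  · intro K _ _
    have hinj : Function.Injective (coeffMap (Int.castRingHom ℂ)) :=
      Fermat.Agent.H67.coeffMap_injective_of_injective _ (RingHom.injective_int _)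
    have hbase : ∀ (S : Type) [CommRing S],
        coeffMap (Int.castRingHom S) (baseS ℤ q) = baseS S q := by
      intro S _
      rw [baseS, coeffMap_qExpand, coeffMap_jqModC]
      rfl
    have hinf : ∀ (S : Type) [CommRing S],
        coeffMap (Int.castRingHom S) (rootInf ℤ q) = rootInf S q := by
      intro S _
      rw [rootInf, coeffMap_qExpand, coeffMap_qExpand, coeffMap_jqModC]
      rfl
    -- the two modular equations over `ℂ`
    have h1C : (D.Φ.map (evalAt (baseS ℂ q))).eval (jqModC ℂ) = 0 := by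
      rw [D.Φ_factor, eval_mul, Fermat.Agent.H27.prod_rootFin_eval_jq q hq.pos ζ, mul_zero]
    have h2C : (D.Φ.map (evalAt (baseS ℂ q))).eval (rootInf ℂ q) = 0 := by
      rw [D.Φ_factor, eval_mul, eval_sub, eval_X, eval_C, sub_self, zero_mul]
    -- over `ℤ`
    have h1Z : (D.Φ.map (evalAt (baseS ℤ q))).eval (jqModC ℤ) = 0 := by
      apply hinj
      rw [map_zero, Fermat.Agent.H67.coeffMap_eval_L, hbase, coeffMap_jqModC]
      exact h1C
    have h2Z : (D.Φ.map (evalAt (baseS ℤ q))).eval (rootInf ℤ q) = 0 := by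
      apply hinj
      rw [map_zero, Fermat.Agent.H67.coeffMap_eval_L, hbase, hinf]
      exact h2C
    -- over `K`
    constructor
    · have h := Fermat.Agent.H27.KLGB.eval_map_coeffMap (Int.castRingHom K) D.Φ _ _ h1Z
      rwa [hbase, coeffMap_jqModC] at h
    · have h := Fermat.Agent.H27.KLGB.eval_map_coeffMap (Int.castRingHom K) D.Φ _ _ h2Z
      rwa [hbase, hinf] at h

end Fermat.Agent.H46.SS2
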