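/-
P-SS2 row 1082 (SS2-C5f-3 NORMPLACE-UNIF), helper46: `NormPlaceUnifStatement` (Mathlib only).

`E / E'` finite, characteristic zero, `O'` a discrete valuation ring of `E'`, `Z : E` integral
over `O'` whose norm `N_{E/E'}(Z)` is a uniformiser of `O'`.  Then `Z` is a uniformiser of every
valuation ring `P` of `E` above `O'` at which it is a non-unit: `x / Z ∈ P` for `x ∈ 𝔪_P`.
-/
import Mathlib
import Fermat.Agent.H22.SS2.Cusp11Interfaces2
import Fermat.Agent.H46.SS2.NormSmith
import Fermat.Agent.H46.SS2.PlaceCore
import Fermat.Agent.H46.SS2.NormPlace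

set_option autoImplicit false
set_option linter.unusedSectionVars false

open Polynomial

namespace Fermat.Agent.H46.SS2

section core

variable {S E : Type*} [CommRing S] [IsDomain S] [IsNoetherianRing S] [Field E] [Algebra S E]
  [IsFractionRing S E]

/-- **Uniformiser**: if `P` is centred at `z S`, then `z` is a uniformiser of `P`. -/
theorem IsCentredAt.div_mem {P : ValuationSubring E} {z : S} (h : IsCentredAt P z) (hz0 : z ≠ 0)
    (x : E) (hx : x ∈ P.nonunits) : x / algebraMap S E z ∈ P := by
  by_cases hx0 : x = 0
  · rw [hx0, zero_div]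
    exact zero_mem _
  obtain ⟨k₁, k₂, a, b, ha, hb, rfl⟩ := exists_decomp z h.span_ne_top x hx0
  have hlt : k₂ < k₁ := (h.mem_nonunits_iff hz0 k₁ k₂ a b ha hb).mp hx
  obtain ⟨m, rfl⟩ : ∃ m, k₁ = m + 1 := ⟨k₁ - 1, by omega⟩
  have hz0' : algebraMap S E z ≠ 0 :=
    (map_ne_zero_iff _ (IsFractionRing.injective S E)).mpr hz0
  have hb0 : algebraMap S E b ≠ 0 := by
    intro h0
    have := h.valuation_eq_one b hb
    rw [h0, map_zero] at this
    exact zero_ne_one this
  have hre : (algebraMap S E z ^ (m + 1) * algebraMap S E a)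
        / (algebraMap S E z ^ k₂ * algebraMap S E b) / algebraMap S E z
      = (algebraMap S E z ^ m * algebraMap S E a)
        / (algebraMap S E z ^ k₂ * algebraMap S E b) := by
    have hden : algebraMap S E z ^ k₂ * algebraMap S E b ≠ 0 :=
      mul_ne_zero (pow_ne_zero _ hz0') hb0
    rw [div_div, div_eq_div_iff (mul_ne_zero hden hz0') hden]
    ring
  rw [hre]
  exact (h.mem_iff hz0 m k₂ a b ha hb).mpr (by omega)

end core

/-- The valuation rings above `O'` at which `Z` is a non-unit are centred at `z S`, `S` the
integral closure of `O'` (the hypothesis of `placeCore_unique`). -/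
theorem isCentredAt_of_norm_uniformiser {E' E : Type} [Field E'] [Field E] [Algebra E' E]
    [FiniteDimensional E' E] [CharZero E'] (O' : ValuationSubring E') (_htop : O' ≠ ⊤)
    (_hPID : IsPrincipalIdealRing O') (Z : E) (hZint : IsIntegral O' Z)
    (hN0 : Algebra.norm E' Z ≠ 0) (hNnu : Algebra.norm E' Z ∈ O'.nonunits)
    (hNdiv : ∀ x ∈ O'.nonunits, x / Algebra.norm E' Z ∈ O')
    (P : ValuationSubring E) (hP : P.comap (algebraMap E' E) = O') (hZP : Z ∈ P.nonunits) :
    haveI : IsNoetherianRing (integralClosure O' E) :=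
      haveI : Algebra.IsSeparable E' E := Algebra.IsSeparable.of_integral E' E
      haveI : Module.Finite O' (integralClosure O' E) :=
        IsIntegralClosure.finite O' E' E (integralClosure O' E)
      IsNoetherianRing.of_finite O' (integralClosure O' E)
    haveI : IsFractionRing (integralClosure O' E) E :=
      integralClosure.isFractionRing_of_finite_extension E' E
    (⟨Z, hZint⟩ : integralClosure O' E) ≠ 0 ∧
      IsCentredAt P (⟨Z, hZint⟩ : integralClosure O' E) := by
  have hsep : Algebra.IsSeparable E' E := Algebra.IsSeparable.of_integral E' E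
  have hfin : Module.Finite O' (integralClosure O' E) :=
    IsIntegralClosure.finite O' E' E (integralClosure O' E)
  have hfree : Module.Free O' (integralClosure O' E) :=
    Module.free_of_finite_type_torsion_free'
  have hnoeth : IsNoetherianRing (integralClosure O' E) :=
    IsNoetherianRing.of_finite O' (integralClosure O' E)
  have hfrac : IsFractionRing (integralClosure O' E) E :=
    integralClosure.isFractionRing_of_finite_extension E' E
  have hloc : IsLocalization
      (Algebra.algebraMapSubmonoid (integralClosure O' E) (nonZeroDivisors O')) E :=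
    IsIntegralClosure.isLocalization O' E' E (integralClosure O' E)
  obtain ⟨z, hz, hzdef⟩ : ∃ z : integralClosure O' E, (z : E) = Z ∧ z = ⟨Z, hZint⟩ :=
    ⟨⟨Z, hZint⟩, rfl, rfl⟩
  rw [← hzdef]
  have hnorm : Algebra.norm E' Z = ((Algebra.norm O' z : O') : E') := by
    rw [← hz]
    exact Algebra.norm_localization O' (nonZeroDivisors O') z
  have hspan : ∀ s : integralClosure O' E, s ∈ Ideal.span {z} → (s : E) ∈ P.nonunits := by
    intro s hs
    obtain ⟨t, ht⟩ := Ideal.mem_span_singleton'.mp hs
    have h1 : (s : E) = Z * (t : E) := by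
      rw [← ht, ← hz, mul_comm]
      rfl
    rw [h1]
    exact mul_mem_nonunits P hZP (mem_of_isIntegral O' P hP _ t.2)
  have hn0 : Algebra.norm O' z ≠ 0 := by
    intro h0
    apply hN0
    rw [hnorm, h0]
    rfl
  have hnu : ¬ IsUnit (Algebra.norm O' z) := by
    rw [isUnit_iff_not_mem_nonunits, not_not, ← hnorm]
    exact hNnu
  have hdiv : ∀ x : O', ¬ IsUnit x → Algebra.norm O' z ∣ x := by
    intro x hx
    rw [isUnit_iff_not_mem_nonunits, not_not] at hx
    refine ⟨⟨(x : E') / Algebra.norm E' Z, hNdiv _ hx⟩, ?_⟩
    apply Subtype.ext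
    show (x : E') = ((Algebra.norm O' z : O') : E') * ((x : E') / Algebra.norm E' Z)
    rw [← hnorm]
    field_simp
  have hz0 : z ≠ 0 := by
    intro h0
    apply hn0
    rw [h0]
    exact Algebra.norm_zero
  have hstar := exists_sub_mem_span (R := O') z hn0 hnu hdiv
  have hunit : ∀ d : O', algebraMap O' (integralClosure O' E) d ∉ Ideal.span {z} →
      IsUnit d := by
    intro d hd
    by_contra hdu
    obtain ⟨c, hc⟩ := hdiv d hdu
    apply hd
    rw [hc, map_mul]
    exact Ideal.mul_mem_right _ _ (norm_mem_span (R := O') z)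
  refine ⟨hz0, fun s => mem_of_isIntegral O' P hP _ s.2, fun s hs => ?_,
    by rw [← hz] at hZP; exact hZP⟩
  obtain ⟨d, hd⟩ := hstar s
  have h1 : ((s - algebraMap O' (integralClosure O' E) d : integralClosure O' E) : E)
      ∈ P.nonunits := hspan _ hd
  have h2 : algebraMap E' E (d : E') ∈ P.nonunits := by
    have h3 := sub_mem_nonunits P hs h1
    have h4 : algebraMap (integralClosure O' E) E s
        - ((s - algebraMap O' (integralClosure O' E) d : integralClosure O' E) : E)
        = algebraMap E' E (d : E') := by
      show (s : E) - ((s : E) - algebraMap E' E (d : E')) = _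
      ring
    rw [← h4]
    exact h3
  have h5 : (d : E') ∈ O'.nonunits := by
    have h := (mem_nonunits_comap P (algebraMap E' E) (d : E')).mpr h2
    rw [hP] at h
    exact h
  have h6 : ¬ IsUnit d := by
    rw [isUnit_iff_not_mem_nonunits, not_not]
    exact h5
  have h7 : algebraMap O' (integralClosure O' E) d ∈ Ideal.span {z} := by
    by_contra hcon
    exact h6 (hunit d hcon)
  have := Ideal.add_mem _ hd h7
  rwa [sub_add_cancel] at this

/-- **SS2-C5f-3 NORMPLACE-UNIF**: `Z` is a uniformiser of every valuation ring above `O'` at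
which it is a non-unit. -/
theorem normPlaceUnif : Fermat.Agent.H22.SS2.NormPlaceUnifStatement := by
  intro E' E _ _ _ _ _ O' htop hPID Z hZ hN P hP hZP x hx
  obtain ⟨hN0, hNnu, hNdiv⟩ := hN
  have hZint : IsIntegral O' Z := isIntegral_of_monic O' Z hZ
  have hsep : Algebra.IsSeparable E' E := Algebra.IsSeparable.of_integral E' E
  have hfin : Module.Finite O' (integralClosure O' E) :=
    IsIntegralClosure.finite O' E' E (integralClosure O' E)
  have hnoeth : IsNoetherianRing (integralClosure O' E) :=
    IsNoetherianRing.of_finite O' (integralClosure O' E)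
  have hfrac : IsFractionRing (integralClosure O' E) E :=
    integralClosure.isFractionRing_of_finite_extension E' E
  obtain ⟨hz0, hc⟩ := isCentredAt_of_norm_uniformiser O' htop hPID Z hZint hN0 hNnu hNdiv P hP hZP
  exact IsCentredAt.div_mem hc hz0 x hx

end Fermat.Agent.H46.SS2
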