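/-
P-SS2 row 1081 (SS2-C9d CUSP-ROOT), helper46: the abstract core.

`K` a field, `A` an integrally closed domain with fraction field `K`.
`HasConst f a` : `f ∈ K((t))` is a power series with constant coefficient `a ∈ A`.
* an element of `K((t))` integral over `A[y]`, `y ∈ t K[[t]]`, satisfies `HasConst`;
* calculus of `HasConst` (sums, products, inverses of units).
-/
import Mathlib

set_option autoImplicit false
set_option linter.unusedSectionVars false

noncomputable section

open Polynomial

namespace Fermat.Agent.H46.SS2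

section HasConst

variable {K : Type*} [Field K] {A : Type*} [CommRing A] [Algebra A K]

/-- `f ∈ K((t))` is a power series with constant coefficient (the image of) `a ∈ A`. -/
def HasConst (f : LaurentSeries K) (a : A) : Prop :=
  ∃ S : PowerSeries K, HahnSeries.ofPowerSeries ℤ K S = f ∧
    PowerSeries.constantCoeff S = algebraMap A K a

theorem hasConst_const (a : A) :
    HasConst (algebraMap K (LaurentSeries K) (algebraMap A K a)) a :=
  ⟨PowerSeries.C (algebraMap A K a), rfl, by
    rw [PowerSeries.constantCoeff_C]⟩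

theorem hasConst_zero : HasConst (0 : LaurentSeries K) (0 : A) :=
  ⟨0, by rw [map_zero], by rw [map_zero, map_zero]⟩

theorem hasConst_one : HasConst (1 : LaurentSeries K) (1 : A) :=
  ⟨1, by rw [map_one], by rw [map_one, map_one]⟩

theorem HasConst.add {f g : LaurentSeries K} {a b : A} (hf : HasConst f a) (hg : HasConst g b) :
    HasConst (f + g) (a + b) := by
  obtain ⟨S, rfl, hS⟩ := hf
  obtain ⟨T, rfl, hT⟩ := hg
  exact ⟨S + T, by rw [map_add], by rw [map_add, map_add, hS, hT]⟩

theorem HasConst.sub {f g : LaurentSeries K} {a b : A} (hf : HasConst f a) (hg : HasConst g b) :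
    HasConst (f - g) (a - b) := by
  obtain ⟨S, rfl, hS⟩ := hf
  obtain ⟨T, rfl, hT⟩ := hg
  exact ⟨S - T, by rw [map_sub], by rw [map_sub, map_sub, hS, hT]⟩

theorem HasConst.mul {f g : LaurentSeries K} {a b : A} (hf : HasConst f a) (hg : HasConst g b) :
    HasConst (f * g) (a * b) := by
  obtain ⟨S, rfl, hS⟩ := hf
  obtain ⟨T, rfl, hT⟩ := hg
  exact ⟨S * T, by rw [map_mul], by rw [map_mul, map_mul, hS, hT]⟩

theorem HasConst.unique (hinj : Function.Injective (algebraMap A K)) {f : LaurentSeries K}
    {a b : A} (hf : HasConst f a) (hg : HasConst f b) : a = b := by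
  obtain ⟨S, hSf, hS⟩ := hf
  obtain ⟨T, hTf, hT⟩ := hg
  have h : S = T := HahnSeries.ofPowerSeries_injective (hSf.trans hTf.symm)
  rw [h] at hS
  exact hinj (hS.symm.trans hT)

theorem HasConst.inv {f : LaurentSeries K} (u : Aˣ)
    (hf : HasConst f (u : A)) : HasConst f⁻¹ ((u⁻¹ : Aˣ) : A) := by
  obtain ⟨S, rfl, hS⟩ := hf
  have hu0 : algebraMap A K (u : A) ≠ 0 := (u.isUnit.map (algebraMap A K)).ne_zero
  have hS0 : PowerSeries.constantCoeff S ≠ 0 := by rw [hS]; exact hu0
  refine ⟨S⁻¹, ?_, ?_⟩
  · have h1 := congrArg (HahnSeries.ofPowerSeries ℤ K) (PowerSeries.mul_inv_cancel S hS0)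
    rw [map_mul, map_one] at h1
    exact eq_inv_of_mul_eq_one_right h1
  · rw [PowerSeries.constantCoeff_inv, hS, map_units_inv]

/-- the `X`-multiple of the inverse of a unit is a power series without constant term -/
theorem hasConst_single_mul_inv (U : PowerSeries K) (hU : PowerSeries.constantCoeff U ≠ 0) :
    HasConst (A := A)
      ((HahnSeries.single (-1 : ℤ) (1 : K) * HahnSeries.ofPowerSeries ℤ K U)⁻¹) 0 := by
  refine ⟨PowerSeries.X * U⁻¹, ?_, by rw [map_mul, PowerSeries.constantCoeff_X, zero_mul, map_zero]⟩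
  have h1 := congrArg (HahnSeries.ofPowerSeries ℤ K) (PowerSeries.mul_inv_cancel U hU)
  rw [map_mul, map_one] at h1
  rw [map_mul, HahnSeries.ofPowerSeries_X]
  symm
  apply inv_eq_of_mul_eq_one_right
  calc HahnSeries.single (-1 : ℤ) (1 : K) * HahnSeries.ofPowerSeries ℤ K U
        * (HahnSeries.single (1 : ℤ) (1 : K) * HahnSeries.ofPowerSeries ℤ K U⁻¹)
      = (HahnSeries.single (-1 : ℤ) (1 : K) * HahnSeries.single (1 : ℤ) (1 : K))
        * (HahnSeries.ofPowerSeries ℤ K U * HahnSeries.ofPowerSeries ℤ K U⁻¹) := by ring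
    _ = 1 := by
        rw [h1, mul_one, HahnSeries.single_mul_single]
        simp

end HasConst

section integral

variable {K : Type*} [Field K] {A : Type*} [CommRing A] [IsDomain A] [IsIntegrallyClosed A]
  [Algebra A K] [IsFractionRing A K]

/-- the evaluation `A[X] → K((t))`, `X ↦ y` -/
def evLaurent (y : LaurentSeries K) : A[X] →+* LaurentSeries K :=
  Polynomial.eval₂RingHom ((algebraMap K (LaurentSeries K)).comp (algebraMap A K)) y

/-- **Integrality**: an element of `K((t))` integral over `A[y]`, `y ∈ t K[[t]]`, is a power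
series with constant coefficient in `A`. -/
theorem hasConst_of_isIntegralElem (Y : PowerSeries K) (hY : PowerSeries.constantCoeff Y = 0)
    (f : LaurentSeries K)
    (hf : (evLaurent (A := A) (HahnSeries.ofPowerSeries ℤ K Y)).IsIntegralElem f) :
    ∃ a : A, HasConst f a := by
  obtain ⟨p, hpm, hp⟩ := hf
  -- the evaluation into power series
  let φ₀ : A[X] →+* PowerSeries K :=
    Polynomial.eval₂RingHom ((PowerSeries.C (R := K)).comp (algebraMap A K)) Y
  have hφ : (HahnSeries.ofPowerSeries ℤ K).comp φ₀
      = evLaurent (A := A) (HahnSeries.ofPowerSeries ℤ K Y) := by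
    apply Polynomial.ringHom_ext
    · intro a
      simp only [φ₀, evLaurent, RingHom.comp_apply, Polynomial.coe_eval₂RingHom, eval₂_C]
      rfl
    · simp only [φ₀, evLaurent, RingHom.comp_apply, Polynomial.coe_eval₂RingHom, eval₂_X]
  have hconst : (PowerSeries.constantCoeff (R := K)).comp φ₀
      = (algebraMap A K).comp (Polynomial.constantCoeff (R := A)) := by
    apply Polynomial.ringHom_ext
    · intro a
      simp only [φ₀, RingHom.comp_apply, Polynomial.coe_eval₂RingHom, eval₂_C,
        PowerSeries.constantCoeff_C, Polynomial.constantCoeff_apply, coeff_C_zero]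
    · simp only [φ₀, RingHom.comp_apply, Polynomial.coe_eval₂RingHom, eval₂_X,
        Polynomial.constantCoeff_apply, coeff_X_zero, map_zero]
      exact hY
  -- `f` is integral over `K[[t]]`
  have hint : IsIntegral (PowerSeries K) f := by
    refine ⟨p.map φ₀, hpm.map φ₀, ?_⟩
    rw [Polynomial.eval₂_map]
    have h1 : (algebraMap (PowerSeries K) (LaurentSeries K)).comp φ₀
        = evLaurent (A := A) (HahnSeries.ofPowerSeries ℤ K Y) := by
      rw [← hφ]
      congr 1
    rw [h1]
    exact hp
  obtain ⟨S, hS⟩ := IsIntegrallyClosed.isIntegral_iff.mp hint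
  have hS' : HahnSeries.ofPowerSeries ℤ K S = f := by
    rw [← hS, LaurentSeries.coe_algebraMap]
  -- the equation in `K[[t]]`
  have heq : (p.map φ₀).eval S = 0 := by
    apply HahnSeries.ofPowerSeries_injective (Γ := ℤ)
    rw [map_zero, ← Polynomial.eval₂_hom, hS', Polynomial.eval₂_map, hφ]
    exact hp
  -- apply the constant coefficient
  have h0 : ((p.map (Polynomial.constantCoeff (R := A))).map (algebraMap A K)).eval
      (PowerSeries.constantCoeff S) = 0 := by
    have h1 := congrArg (PowerSeries.constantCoeff (R := K)) heq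
    rw [map_zero, ← Polynomial.eval_map_apply, Polynomial.map_map, hconst,
      ← Polynomial.map_map] at h1
    exact h1
  have hint0 : IsIntegral A (PowerSeries.constantCoeff S) :=
    ⟨p.map (Polynomial.constantCoeff (R := A)), hpm.map _, by
      rw [← Polynomial.eval_map]; exact h0⟩
  obtain ⟨a, ha⟩ := IsIntegrallyClosed.isIntegral_iff.mp hint0
  exact ⟨a, S, hS', ha.symm⟩

end integral

end Fermat.Agent.H46.SS2
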