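/-
P-SS2 row 1081 (SS2-C9d CUSP-ROOT), helper46:
`modelCuspRoot (N q) : Fermat.Agent.H11.SS2.ModelCuspRootStatement N q`.

The cusp `∞` of the chart `j⁻¹`: `𝔪 = {s ∈ B(j⁻¹) | s(0) ∈ q A₀}`; a local unit `ε` with `ε ≡ 1` on
a valuation through `𝔪` has `ε(0) ≡ 1 mod q`, and `ε(0)^(n-1) ε = (ε(0) ρ)^n` with
`ρ^n = ε / ε(0) ∈ 1 + t K₁[[t]]`.
-/
import Mathlib
import Fermat.Agent.H11.SS2.ModelDefs
import Fermat.Agent.H46.SS2.CuspRootCore
import Fermat.Agent.H46.SS2.PlaceCore
import Fermat.Agent.H87.KL.KumGauss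
import Fermat.Agent.H33.KLM.ModelRoot
import Fermat.Agent.H27.KLGB.Model

set_option autoImplicit false
set_option linter.unusedSectionVars false

noncomputable section

open Polynomial ModularCurve AlgebraicCurve

namespace Fermat.Agent.H46.SS2

open Fermat.Agent.H22.KL Fermat.Agent.H87.KL Fermat.Agent.H11.SS2

section abs

variable {K A E : Type} [Field K] [CharZero K] [CommRing A] [IsDomain A]
  [IsDiscreteValuationRing A] [Algebra A K] [IsFractionRing A K] [Field E] [Algebra A E]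

/-- elements of `B(y)` are power series with constant coefficient in `A` -/
theorem hasConst_of_mem_chartClosure (ι : E →+* LaurentSeries K)
    (hι : ∀ a : A, ι (algebraMap A E a) = algebraMap K (LaurentSeries K) (algebraMap A K a))
    (y : E) (hy : HasConst (A := A) (ι y) 0) (s : E) (hs : s ∈ chartClosure A E y) :
    ∃ a : A, HasConst (ι s) a := by
  obtain ⟨Y, hY, hY0⟩ := hy
  rw [map_zero] at hY0
  obtain ⟨p, hpm, hp⟩ := (mem_chartClosure_iff (A := A) y s).mp hs
  refine hasConst_of_isIntegralElem Y hY0 (ι s) ⟨p, hpm, ?_⟩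
  have h1 := congrArg ι hp
  rw [Polynomial.hom_eval₂, map_zero] at h1
  have h2 : ι.comp (evX (A := A) y) = evLaurent (A := A) (HahnSeries.ofPowerSeries ℤ K Y) := by
    apply Polynomial.ringHom_ext
    · intro a
      simp only [RingHom.comp_apply, evX_apply, aeval_C, evLaurent, Polynomial.coe_eval₂RingHom,
        eval₂_C]
      exact hι a
    · simp only [RingHom.comp_apply, evX_apply, aeval_X, evLaurent, Polynomial.coe_eval₂RingHom,
        eval₂_X]
      exact hY.symm
  rw [h2] at h1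
  exact h1

/-- **CUSP-ROOT, abstract form.** -/
theorem cuspRoot_abs (ι : E →+* LaurentSeries K)
    (hι : ∀ a : A, ι (algebraMap A E a) = algebraMap K (LaurentSeries K) (algebraMap A K a))
    (ϖ : A) (hϖ : Irreducible ϖ) (y : E) (hy : HasConst (A := A) (ι y) 0) :
    ∃ 𝔪 : Ideal (chartClosure A E y), 𝔪.IsMaximal ∧
      algebraMap A (chartClosure A E y) ϖ ∈ 𝔪 ∧
      (∀ s : chartClosure A E y, (s : E) = y → s ∈ 𝔪) ∧
      ∀ V : ValuationSubring E, (∀ z ∈ chartClosure A E y, z ∈ V) → Through A E y 𝔪 V →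
        ∀ n : ℕ, 0 < n → ∀ ε : E, IsLocUnit A E y 𝔪 ε → ε - 1 ∈ V.nonunits →
          ∃ c d : A, c = 1 + ϖ * d ∧ ∃ ω : LaurentSeries K,
            ω ^ n = algebraMap K (LaurentSeries K) (algebraMap A K c) * ι ε := by
  have hinj : Function.Injective (algebraMap A K) := IsFractionRing.injective A K
  have hB : ∀ s : chartClosure A E y, ∃ a : A, HasConst (ι (s : E)) a := fun s =>
    hasConst_of_mem_chartClosure ι hι y hy s s.2
  let 𝔪 : Ideal (chartClosure A E y) :=
    { carrier := {s | ∃ a ∈ IsLocalRing.maximalIdeal A, HasConst (ι (s : E)) a}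
      add_mem' := by
        rintro s t ⟨a, ha, hs⟩ ⟨b, hb, ht⟩
        refine ⟨a + b, Ideal.add_mem _ ha hb, ?_⟩
        have h1 : ι ((s + t : chartClosure A E y) : E) = ι (s : E) + ι (t : E) := by
          rw [← map_add]
          rfl
        rw [h1]
        exact hs.add ht
      zero_mem' := by
        refine ⟨0, Ideal.zero_mem _, ?_⟩
        have h1 : ι ((0 : chartClosure A E y) : E) = 0 := by
          rw [← map_zero ι]
          rfl
        rw [h1]
        exact hasConst_zero
      smul_mem' := by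
        rintro c s ⟨a, ha, hs⟩
        obtain ⟨γ, hγ⟩ := hB c
        refine ⟨γ * a, Ideal.mul_mem_left _ _ ha, ?_⟩
        have h1 : ι ((c • s : chartClosure A E y) : E) = ι (c : E) * ι (s : E) := by
          rw [← map_mul]
          rfl
        rw [h1]
        exact hγ.mul hs }
  have hmem : ∀ (s : chartClosure A E y) (a : A), HasConst (ι (s : E)) a →
      (s ∈ 𝔪 ↔ a ∈ IsLocalRing.maximalIdeal A) := by
    intro s a hs
    constructor
    · rintro ⟨a', ha', hs'⟩
      rw [hs.unique hinj hs']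
      exact ha'
    · intro ha
      exact ⟨a, ha, hs⟩
  have hconstB : ∀ a : A, HasConst (ι ((algebraMap A (chartClosure A E y) a : chartClosure A E y) : E)) a := by
    intro a
    have h1 : ((algebraMap A (chartClosure A E y) a : chartClosure A E y) : E) = algebraMap A E a := rfl
    rw [h1, hι]
    exact hasConst_const a
  have hone : ι ((1 : chartClosure A E y) : E) = 1 := by
    rw [← map_one ι]
    rfl
  have hmax : 𝔪.IsMaximal := by
    rw [Ideal.isMaximal_iff]
    constructor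
    · intro h1
      have h2 := (hmem 1 1 (by rw [hone]; exact hasConst_one)).mp h1
      exact (IsLocalRing.mem_maximalIdeal _).mp h2 isUnit_one
    · intro J s hJ hs hsJ
      obtain ⟨a, ha⟩ := hB s
      have hau : IsUnit a := by
        by_contra hnu
        exact hs ((hmem s a ha).mpr ((IsLocalRing.mem_maximalIdeal _).mpr hnu))
      obtain ⟨u, rfl⟩ := hau
      let r : chartClosure A E y := algebraMap A (chartClosure A E y) ((u⁻¹ : Aˣ) : A)
      have h1 : s * r - 1 ∈ 𝔪 := by
        refine ⟨0, Ideal.zero_mem _, ?_⟩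
        have h2 : ι ((s * r - 1 : chartClosure A E y) : E)
            = ι (s : E) * ι (r : E) - ι ((1 : chartClosure A E y) : E) := by
          rw [← map_mul, ← map_sub]
          rfl
        rw [h2, hone]
        have h3 := (ha.mul (hconstB ((u⁻¹ : Aˣ) : A))).sub (hasConst_one (K := K) (A := A))
        rw [Units.mul_inv, sub_self] at h3
        exact h3
      have h4 : s * r - (s * r - 1) ∈ J := J.sub_mem (J.mul_mem_right _ hsJ) (hJ h1)
      rwa [sub_sub_cancel] at h4
  have hspan : IsLocalRing.maximalIdeal A = Ideal.span {ϖ} :=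
    (IsDiscreteValuationRing.irreducible_iff_uniformizer ϖ).mp hϖ
  refine ⟨𝔪, hmax, ?_, ?_, ?_⟩
  · exact ⟨ϖ, (IsLocalRing.mem_maximalIdeal _).mpr hϖ.not_isUnit, hconstB ϖ⟩
  · intro s hs
    refine ⟨0, Ideal.zero_mem _, ?_⟩
    rw [hs]
    exact hy
  · intro V hBV hthru n hn ε hε hεV
    obtain ⟨hε0, ⟨b, hb𝔪, hbε⟩, -⟩ := hε
    obtain ⟨β, hβ⟩ := hB b
    have hβu : IsUnit β := by
      by_contra hnu
      exact hb𝔪 ((hmem b β hβ).mpr ((IsLocalRing.mem_maximalIdeal _).mpr hnu))
    obtain ⟨u, rfl⟩ := hβu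
    obtain ⟨γ, hγ⟩ := hB ⟨(b : E) * ε, hbε⟩
    have hb0 : ι (b : E) ≠ 0 := by
      intro h0
      have h1 : (b : E) = 0 := (map_eq_zero ι).mp h0
      apply hb𝔪
      have h2 : b = 0 := Subtype.ext h1
      rw [h2]
      exact 𝔪.zero_mem
    -- the constant coefficient of `ε`
    have hεc : HasConst (ι ε) (γ * ((u⁻¹ : Aˣ) : A)) := by
      have h1 : ι ε = ι ((b : E) * ε) * (ι (b : E))⁻¹ := by
        rw [map_mul]
        field_simp
      rw [h1]
      exact hγ.mul (hβ.inv u)
    -- `ε(0) ≡ 1`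
    have hdiff : γ - (u : A) ∈ IsLocalRing.maximalIdeal A := by
      have ht : ((⟨(b : E) * ε, hbε⟩ : chartClosure A E y) - b) ∈ 𝔪 := by
        apply hthru
        have h1 : (((⟨(b : E) * ε, hbε⟩ : chartClosure A E y) - b : chartClosure A E y) : E)
            = (ε - 1) * (b : E) := by
          show (b : E) * ε - (b : E) = (ε - 1) * (b : E)
          ring
        rw [h1]
        exact mul_mem_nonunits V hεV (hBV _ b.2)
      refine (hmem _ _ ?_).mp ht
      have h2 : ι ((((⟨(b : E) * ε, hbε⟩ : chartClosure A E y) - b : chartClosure A E y)) : E)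
          = ι ((b : E) * ε) - ι (b : E) := by
        rw [← map_sub]
        rfl
      rw [h2]
      exact hγ.sub hβ
    set e₀ : A := γ * ((u⁻¹ : Aˣ) : A) with he₀
    have he₀1 : e₀ - 1 ∈ IsLocalRing.maximalIdeal A := by
      have h1 : e₀ - 1 = (γ - (u : A)) * ((u⁻¹ : Aˣ) : A) := by
        rw [he₀, sub_mul, Units.mul_inv]
      rw [h1]
      exact Ideal.mul_mem_right _ _ hdiff
    have he₀u : IsUnit e₀ := by
      by_contra hnu
      have h1 : e₀ ∈ IsLocalRing.maximalIdeal A := (IsLocalRing.mem_maximalIdeal _).mpr hnu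
      have h2 : e₀ - (e₀ - 1) ∈ IsLocalRing.maximalIdeal A := Ideal.sub_mem _ h1 he₀1
      rw [sub_sub_cancel] at h2
      exact (IsLocalRing.mem_maximalIdeal _).mp h2 isUnit_one
    have he₀K : algebraMap A K e₀ ≠ 0 := (he₀u.map (algebraMap A K)).ne_zero
    -- the constant `c`
    have hdvd : ϖ ∣ e₀ ^ (n - 1) - 1 := by
      have h1 : ϖ ∣ e₀ - 1 := by
        rw [hspan] at he₀1
        exact Ideal.mem_span_singleton.mp he₀1
      have h2 : e₀ - 1 ∣ e₀ ^ (n - 1) - 1 ^ (n - 1) := sub_dvd_pow_sub_pow e₀ 1 (n - 1)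
      rw [one_pow] at h2
      exact h1.trans h2
    obtain ⟨d, hd⟩ := hdvd
    refine ⟨e₀ ^ (n - 1), d, by rw [← hd]; ring, ?_⟩
    -- the root
    obtain ⟨S, hS, hS0⟩ := hεc
    have hF : PowerSeries.constantCoeff (PowerSeries.C (algebraMap A K e₀)⁻¹ * S) = 1 := by
      rw [map_mul, PowerSeries.constantCoeff_C, hS0]
      exact inv_mul_cancel₀ he₀K
    have hnK : ((n : K))⁻¹ * (n : K) = 1 :=
      inv_mul_cancel₀ (Nat.cast_ne_zero.mpr hn.ne')
    obtain ⟨w, -, hw⟩ := Fermat.Agent.H33.KLM.exists_pow_eq_of_constantCoeff_eq_one n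
      ((n : K))⁻¹ hnK _ hF
    refine ⟨algebraMap K (LaurentSeries K) (algebraMap A K e₀) * HahnSeries.ofPowerSeries ℤ K w, ?_⟩
    have h1 : HahnSeries.ofPowerSeries ℤ K (PowerSeries.C (algebraMap A K e₀)⁻¹ * S)
        = algebraMap K (LaurentSeries K) (algebraMap A K e₀)⁻¹ * ι ε := by
      rw [map_mul, hS]
      rfl
    rw [mul_pow, ← map_pow (HahnSeries.ofPowerSeries ℤ K), hw, h1, ← map_pow, ← mul_assoc,
      ← map_mul, map_pow (algebraMap A K)]
    congr 2
    obtain ⟨m, rfl⟩ : ∃ m, n = m + 1 := ⟨n - 1, by omega⟩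
    rw [Nat.add_sub_cancel, pow_succ, mul_assoc, mul_inv_cancel₀ he₀K, mul_one]

end abs

/-- **SS2-C9d CUSP-ROOT.** -/
theorem modelCuspRoot (N q : ℕ) [NeZero N] : Fermat.Agent.H11.SS2.ModelCuspRootStatement N q := by
  intro K₁ _ _ _ A₀ _ _ _ _ _ _ _ hq x hx
  have : CharZero K₁ := charZero_of_injective_algebraMap (algebraMap ℚ K₁).injective
  let ι : ModelField K₁ N →+* LaurentSeries K₁ :=
    algebraMap (ModelField K₁ N) (LaurentSeries K₁)
  have hι : ∀ a : A₀, ι (algebraMap A₀ (ModelField K₁ N) a)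
      = algebraMap K₁ (LaurentSeries K₁) (algebraMap A₀ K₁ a) := by
    intro a
    rw [IsScalarTower.algebraMap_apply A₀ K₁ (ModelField K₁ N)]
    rfl
  have hy : HasConst (A := A₀) (ι x⁻¹) 0 := by
    have h1 : ι x⁻¹ = (jqModC K₁)⁻¹ := by
      rw [map_inv₀]
      show ((x : LaurentSeries K₁))⁻¹ = _
      rw [hx, Fermat.Agent.H27.KLGB.coeffEmb_jq]
    rw [h1, jqModC]
    apply hasConst_single_mul_inv
    rw [← PowerSeries.coeff_zero_eq_constantCoeff_apply, PowerSeries.coeff_map,
      PowerSeries.coeff_zero_eq_constantCoeff_apply, ModularCurve.constantCoeff_jNum, map_one]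
    exact one_ne_zero
  exact cuspRoot_abs ι hι _ hq x⁻¹ hy

end Fermat.Agent.H46.SS2
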