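/-
P-SS2 (S36), helper46: the ADAPTER (C) of the assembly (row SS2-C8 / helper35's `AsmGeom`):
`AsmGlobal ⟹ ∀ n > 0, AsmCusp`.

`yc = x⁻¹`, `𝔪c` = the cusp `∞` of `Fermat.Agent.H46.SS2.modelCuspRoot`, `Vc` = one of the three
vertical valuations through `𝔪c` (`Fermat.Agent.H99.SS2.exists_passesThrough`, with
`C(x⁻¹) = C(x) = V20 ∩ V11 ∩ V02`).
-/
import Fermat.Agent.H35.SS2.AsmDefs
import Fermat.Agent.H46.SS2.CuspRoot
import Fermat.Agent.H99.SS2.Through
import Fermat.Agent.H89.KLGauss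
import Fermat.Agent.H27.KLGB.Model

set_option autoImplicit false
set_option linter.style.haveILetI false

noncomputable section

namespace Fermat.Agent.H46.SS2

open ModularCurve AlgebraicCurve
open Fermat.Agent.H22.KL Fermat.Agent.H11.SS2 Fermat.Agent.H35.SS2

/-- finite ramification from a uniformiser `t` with `ϖ / t ^ e` a unit. -/
theorem pow_div_mem_of_dkUnif {E : Type} [Field E] {V : ValuationSubring E} {t ϖ : E} (e : ℕ)
    (ht : DKUnif V t) (hu : (ϖ / t ^ e)⁻¹ ∈ V) : ∀ s ∈ V.nonunits, s ^ e / ϖ ∈ V := by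
  intro s hs
  have h1 : s / t ∈ V := ht.2.2 s hs
  by_cases hϖ : ϖ = 0
  · rw [hϖ, div_zero]
    exact zero_mem _
  have h2 : s ^ e / ϖ = (s / t) ^ e * (ϖ / t ^ e)⁻¹ := by
    have ht0 : t ≠ 0 := ht.1
    rw [inv_div, div_pow, div_mul_div_comm, mul_comm, mul_div_mul_left _ _ (pow_ne_zero e ht0)]
  rw [h2]
  exact V.mul_mem _ _ (V.pow_mem h1 e) hu

/-- **(C) from (G)**: the cusp block of the assembly. -/
theorem asmCusp_of_global (M' q : ℕ) [NeZero M'] [NeZero q]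
    (K₁ : Type) [Field K₁] [Algebra ℚ K₁] [FiniteDimensional ℚ K₁] (OK : ValuationSubring K₁)
    [IsDiscreteValuationRing ↥OK]
    [Algebra ↥OK (ModelField K₁ (M' * q))] [IsScalarTower ↥OK K₁ (ModelField K₁ (M' * q))]
    [Algebra ↥OK (ModelField K₁ (M' * q * q))]
    [IsScalarTower ↥OK K₁ (ModelField K₁ (M' * q * q))]
    (hirr : Irreducible ((q : ℕ) : ↥OK))
    {x : ModelField K₁ (M' * q * q)}
    {O₁ O₂ : ValuationSubring (ModelField K₁ (M' * q))}
    {V20 V11 V02 : ValuationSubring (ModelField K₁ (M' * q * q))}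
    {Y₁ : ModelField K₁ (M' * q)} {Z : ModelField K₁ (M' * q * q)}
    (hG : AsmGlobal M' q K₁ OK x O₁ O₂ V20 V11 V02 Y₁ Z) (n : ℕ) (hn : 0 < n) :
    AsmCusp M' q K₁ OK x V20 V11 V02 n := by
  classical
  have hx : (x : LaurentSeries K₁) = coeffEmb K₁ jq := by
    rw [hG.chart, Fermat.Agent.H27.KLGB.coeffEmb_jq]
  obtain ⟨𝔪, hmax, hq𝔪, -, hroot⟩ :=
    Fermat.Agent.H46.SS2.modelCuspRoot (M' * q * q) q K₁ ↥OK hirr x hx
  have hinj : Function.Injective (algebraMap ↥OK (ModelField K₁ (M' * q * q))) := by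
    rw [IsScalarTower.algebraMap_eq ↥OK K₁ (ModelField K₁ (M' * q * q))]
    exact (algebraMap K₁ (ModelField K₁ (M' * q * q))).injective.comp
      (IsFractionRing.injective ↥OK K₁)
  have hxT : Transcendental ↥OK x := Fermat.Agent.H27.KLGB.transcendental_model hx
  have hxinvT : Transcendental ↥OK x⁻¹ := fun h => hxT (IsAlgebraic.inv_iff.mp h)
  obtain ⟨hBCi, -, hCinv⟩ := Fermat.Agent.H89.gaussClosureStatement ↥OK
    (ModelField K₁ (M' * q * q)) hinj _ hirr x⁻¹ hxinvT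
  rw [inv_inv] at hCinv
  have hCi : ∀ z : ModelField K₁ (M' * q * q),
      z ∈ gaussClosure ↥OK (ModelField K₁ (M' * q * q)) ((q : ℕ) : ↥OK) x⁻¹ ↔
        z ∈ V20 ∧ z ∈ V11 ∧ z ∈ V02 := by
    intro z
    rw [← hCinv]
    exact hG.gauss z
  have hB : ∀ V : ValuationSubring (ModelField K₁ (M' * q * q)),
      V ∈ ({V20, V11, V02} : Finset (ValuationSubring (ModelField K₁ (M' * q * q)))) →
      ∀ z ∈ chartClosure ↥OK (ModelField K₁ (M' * q * q)) x⁻¹, z ∈ V := by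
    intro V hV z hz
    have h1 := (hCi z).mp (hBCi z hz)
    simp only [Finset.mem_insert, Finset.mem_singleton] at hV
    rcases hV with rfl | rfl | rfl
    exacts [h1.1, h1.2.1, h1.2.2]
  have hιq : algebraMap ↥OK (ModelField K₁ (M' * q * q)) ((q : ℕ) : ↥OK)
      = ((q : ℕ) : ModelField K₁ (M' * q * q)) := map_natCast _ q
  have hN : ∀ V : ValuationSubring (ModelField K₁ (M' * q * q)),
      V ∈ ({V20, V11, V02} : Finset (ValuationSubring (ModelField K₁ (M' * q * q)))) →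
      ∃ N : ℕ, ∀ s ∈ V.nonunits,
        s ^ N / algebraMap ↥OK (ModelField K₁ (M' * q * q)) ((q : ℕ) : ↥OK) ∈ V := by
    intro V hV
    rw [hιq]
    simp only [Finset.mem_insert, Finset.mem_singleton] at hV
    rcases hV with rfl | rfl | rfl
    · exact ⟨1, fun s hs => by rw [pow_one]; exact hG.val3.unif₂₀.2.2 s hs⟩
    · exact ⟨q - 1, pow_div_mem_of_dkUnif (q - 1) hG.val3.unif₁₁ hG.val3.ram₁₁.2⟩
    · exact ⟨1, fun s hs => by rw [pow_one]; exact hG.val3.unif₀₂.2.2 s hs⟩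
  obtain ⟨Vc, hVcS, hVc⟩ := Fermat.Agent.H99.SS2.exists_passesThrough hinj hirr hxinvT
    ({V20, V11, V02} : Finset (ValuationSubring (ModelField K₁ (M' * q * q))))
    (fun z hz => (hCi z).mpr ⟨hz _ (by simp), hz _ (by simp), hz _ (by simp)⟩)
    hB hN 𝔪 hmax.isPrime hq𝔪
  have hVcS' : Vc = V20 ∨ Vc = V11 ∨ Vc = V02 := by
    simpa only [Finset.mem_insert, Finset.mem_singleton] using hVcS
  refine ⟨x⁻¹, Or.inr rfl, 𝔪, hmax, hq𝔪, Vc, hVcS', fun s hs => hVc s hs, ?_⟩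
  intro ε hε hcong
  obtain ⟨c, d, hcd, ω, hω⟩ := hroot Vc (hB Vc hVcS) (fun s hs => hVc s hs) n hn ε hε hcong.2
  exact ⟨c, d, ω, hcd, hω⟩

end Fermat.Agent.H46.SS2
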