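import Mathlib

/-!
# Quadratic Kolchin (helper46, P-SS2 / S36, Mathlib only)

A group `H` acting on a nonzero module on which `2` is injective, such that every element `g`
satisfies `(g - 1)² = 0`, has a nonzero common fixed vector.

Mechanism: for `a = g - 1`, `b = h - 1`, `c = k - 1` (`g, h, k ∈ H`) one has `a b a = 0`,
`a b = - b a` and `a b c = 0`; so the third "derived vector" of any `v` is fixed.
-/

set_option autoImplicit false

namespace Fermat.Agent.H46.SS2

section Ring

variable {R : Type*} [Ring R]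

/-- In a ring where `2` is left-cancellable: if `a² = b² = 0`, `((1+a)(1+b) - 1)² = 0` and
`((1-a)(1+b) - 1)² = 0` then `a b a = 0`. -/
lemma kolchin_aba (h2 : ∀ x : R, 2 * x = 0 → x = 0) (a b : R) (ha : a * a = 0) (hb : b * b = 0)
    (h1 : (a + b + a * b) * (a + b + a * b) = 0)
    (h3 : (b - a - a * b) * (b - a - a * b) = 0) : a * b * a = 0 := by
  have e1 : (a + b + a * b) * (a + b + a * b)
      = a * b + b * a + b * a * b + a * b * a + a * b * a * b
        + (a * a + b * b + a * a * b + a * (b * b) + a * (b * b) * 0) := by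
    noncomm_ring
  have e3 : (b - a - a * b) * (b - a - a * b)
      = - (b * a) - b * a * b - a * b + a * b * a + a * b * a * b
        + (a * a + b * b + a * a * b - a * (b * b)) := by
    noncomm_ring
  rw [e1, ha, hb] at h1
  rw [e3, ha, hb] at h3
  simp only [zero_mul, mul_zero, add_zero, sub_zero] at h1 h3
  have h4 : 2 * (a * b * a + a * b * a * b) = 0 := by
    have : 2 * (a * b * a + a * b * a * b)
        = (a * b + b * a + b * a * b + a * b * a + a * b * a * b)
          + (- (b * a) - b * a * b - a * b + a * b * a + a * b * a * b) := by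
      noncomm_ring
    rw [this, h1, h3, add_zero]
  have h5 : a * b * a + a * b * a * b = 0 := h2 _ h4
  have h6 : a * b * a = (a * b * a + a * b * a * b) * (1 - b) := by
    have : (a * b * a + a * b * a * b) * (1 - b) = a * b * a - a * b * a * (b * b) := by
      noncomm_ring
    rw [this, hb, mul_zero, sub_zero]
  rw [h6, h5, zero_mul]

end Ring

section Module

variable {O : Type*} [CommRing O] {Λ : Type*} [AddCommGroup Λ] [Module O Λ]
  {G : Type*} [Group G]

/-- **Quadratic Kolchin.**  If every element `g` of a subgroup `H` satisfies `(ρ g - 1)² = 0`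
on a nonzero module on which `2` is injective, then `H` has a nonzero common fixed vector. -/
theorem exists_fixed_of_quadUnipotent [Nontrivial Λ]
    (h2 : ∀ v : Λ, (2 : O) • v = 0 → v = 0)
    (ρ : G →* Module.End O Λ) (H : Subgroup G)
    (hu : ∀ g ∈ H, (ρ g - 1) * (ρ g - 1) = 0) :
    ∃ v : Λ, v ≠ 0 ∧ ∀ g ∈ H, ρ g v = v := by
  -- `2` is left-cancellable in the endomorphism ring
  have h2R : ∀ x : Module.End O Λ, 2 * x = 0 → x = 0 := by
    intro x hx
    apply LinearMap.ext
    intro v
    have := congrArg (fun f : Module.End O Λ => f v) hx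
    simp only [LinearMap.zero_apply] at this
    apply h2
    rw [← this, two_mul, two_smul]
    rfl
  -- the basic identities
  have hmul : ∀ g h : G, ρ (g * h) - 1 = (ρ g - 1) + (ρ h - 1) + (ρ g - 1) * (ρ h - 1) := by
    intro g h
    rw [map_mul]
    noncomm_ring
  have hinv : ∀ g ∈ H, ρ g⁻¹ = 1 - (ρ g - 1) := by
    intro g hg
    have h1 : ρ g * ρ g⁻¹ = 1 := by rw [← map_mul, mul_inv_cancel, map_one]
    have h3 : ρ g * (1 - (ρ g - 1)) = 1 := by
      have : ρ g * (1 - (ρ g - 1)) = 1 - (ρ g - 1) * (ρ g - 1) := by noncomm_ring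
      rw [this, hu g hg, sub_zero]
    have h4 : ρ g⁻¹ * ρ g = 1 := by rw [← map_mul, inv_mul_cancel, map_one]
    calc ρ g⁻¹ = ρ g⁻¹ * (ρ g * (1 - (ρ g - 1))) := by rw [h3, mul_one]
      _ = (ρ g⁻¹ * ρ g) * (1 - (ρ g - 1)) := by rw [mul_assoc]
      _ = 1 - (ρ g - 1) := by rw [h4, one_mul]
  have hinvmul : ∀ g ∈ H, ∀ h : G,
      ρ (g⁻¹ * h) - 1 = (ρ h - 1) - (ρ g - 1) - (ρ g - 1) * (ρ h - 1) := by
    intro g hg h
    rw [map_mul, hinv g hg]
    noncomm_ring
  have haba : ∀ g ∈ H, ∀ h ∈ H, (ρ g - 1) * (ρ h - 1) * (ρ g - 1) = 0 := by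
    intro g hg h hh
    apply kolchin_aba h2R _ _ (hu g hg) (hu h hh)
    · rw [← hmul]; exact hu _ (H.mul_mem hg hh)
    · rw [← hinvmul g hg]; exact hu _ (H.mul_mem (H.inv_mem hg) hh)
  have hanti : ∀ g ∈ H, ∀ h ∈ H,
      (ρ g - 1) * (ρ h - 1) + (ρ h - 1) * (ρ g - 1) = 0 := by
    intro g hg h hh
    have h1 := hu _ (H.mul_mem hg hh)
    rw [hmul] at h1
    set a := ρ g - 1 with ha
    set b := ρ h - 1 with hb
    have e1 : (a + b + a * b) * (a + b + a * b)
        = a * b + b * a + b * a * b + a * b * a + a * b * a * b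
          + (a * a + b * b + a * a * b + a * (b * b)) := by
      noncomm_ring
    rw [e1, hu g hg, hu h hh, haba g hg h hh, haba h hh g hg] at h1
    simpa using h1
  have habc : ∀ g ∈ H, ∀ h ∈ H, ∀ k ∈ H, (ρ g - 1) * (ρ h - 1) * (ρ k - 1) = 0 := by
    intro g hg h hh k hk
    have h1 := hanti (g * h) (H.mul_mem hg hh) k hk
    rw [hmul] at h1
    set a := ρ g - 1 with ha
    set b := ρ h - 1 with hb
    set c := ρ k - 1 with hc
    have hac : a * c + c * a = 0 := hanti g hg k hk
    have hbc : b * c + c * b = 0 := hanti h hh k hk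
    have hca : c * a = - (a * c) := by rw [← add_eq_zero_iff_eq_neg']; exact hac
    have hcb : c * b = - (b * c) := by rw [← add_eq_zero_iff_eq_neg']; exact hbc
    have e : (a + b + a * b) * c + c * (a + b + a * b)
        = (a * c + c * a) + (b * c + c * b) + (a * b * c + c * a * b) := by
      noncomm_ring
    rw [e, hac, hbc, zero_add, zero_add] at h1
    have e2 : c * a * b = a * b * c := by
      rw [hca, neg_mul, mul_assoc a c b, hcb, mul_neg, neg_neg, mul_assoc]
    rw [e2, ← two_mul] at h1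
    exact h2R _ h1
  -- the fixed vector
  obtain ⟨v, hv⟩ := exists_ne (0 : Λ)
  have hfix : ∀ (w : Λ) (g : G), (ρ g - 1) w = 0 → ρ g w = w := by
    intro w g hw
    rw [LinearMap.sub_apply, Module.End.one_apply, sub_eq_zero] at hw
    exact hw
  by_cases c1 : ∀ g ∈ H, (ρ g - 1) v = 0
  · exact ⟨v, hv, fun g hg => hfix v g (c1 g hg)⟩
  · push Not at c1
    obtain ⟨g₁, hg₁, hw⟩ := c1
    by_cases c2 : ∀ g ∈ H, (ρ g - 1) ((ρ g₁ - 1) v) = 0
    · exact ⟨_, hw, fun g hg => hfix _ g (c2 g hg)⟩
    · push Not at c2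
      obtain ⟨g₂, hg₂, hu'⟩ := c2
      refine ⟨_, hu', fun g hg => hfix _ g ?_⟩
      have := congrArg (fun f : Module.End O Λ => f v) (habc g hg g₂ hg₂ g₁ hg₁)
      simpa [Module.End.mul_apply] using this

end Module

end Fermat.Agent.H46.SS2
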