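import Mathlib
import Fermat.Prelude.Def_CuspForm_HeckeGaloisRepDatum
import Fermat.Prelude.Def_CuspForm_Newforms
import Fermat.Prelude.Def_GaloisRep_LocalConditions
import Fermat.Prelude.Def_GaloisRep_Residual
import Fermat.Agent.H52.ESS35
import Fermat.Agent.H46.SS2.Kolchin

/-!
# S36 (Carayol) from a Frobenius-quadratic lattice without inertia invariants (helper46, P-SS2)

* `NewformInertiaLatticeStatement` : the geometric input of S36, primitive form: a nonzero finite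
  free `O'`-lattice `Λ` with continuous `G_ℚ`-action, Frobenius relations at good primes, and for
  every prime `q ≠ lam` with `q² ∥ M` a place `A` over `q` and `τ ∈ I_A` with `(τ - 1)² ≠ 0` on `Λ`.
* `NewformNoInvariantsLatticeStatement` : the same with the local clause `Λ^{I_A} = 0`
  (helper11's `(KC)`); it implies the primitive form by the quadratic Kolchin lemma.
* `s36_of_inertiaLattice`, `s36_of_noInvariants` : exactly the frozen statement of S36
  (coefficient ring not extended, `O'' = O'`).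

Both statements carry ALL hypotheses of S36 (including `hlam2` and `hres`), so whoever proves them
may use them or ignore them.
-/

set_option autoImplicit false
set_option linter.unusedSectionVars false

namespace Fermat.Agent.H46.SS2

open Polynomial Module Fermat.Agent.H81.Cyclo Fermat.Agent.H52

/-- The residual hypothesis of S36, verbatim. -/
def S36ResHyp {M : ℕ} [NeZero M] (lam : ℕ) [Fact lam.Prime] (S : Finset ℕ)
    (O' : Type) [CommRing O'] [IsDomain O'] [IsDiscreteValuationRing O']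
    [IsAdicComplete (IsLocalRing.maximalIdeal O') O'] [Finite (IsLocalRing.ResidueField O')]
    [CharZero O']
    (chig : CuspForm.heckeAlgebra M 2 (↑S : Set ℕ) →+* ℂ) (iota : chig.range →+* O') : Prop :=
  ∀ (O'' : Type) [CommRing O''] [IsDomain O''] [IsDiscreteValuationRing O'']
    [IsAdicComplete (IsLocalRing.maximalIdeal O'') O''] [Finite (IsLocalRing.ResidueField O'')]
    [CharZero O'']
    [Algebra O' O''] [Module.Finite O' O''] [IsLocalHom (algebraMap O' O'')],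
    Function.Injective (algebraMap O' O'') → ∀ (ρ : GaloisRepAdic O''),
    (∀ (ℓ : ℕ) (hℓ : ℓ.Prime) (_hℓlam : ℓ ≠ lam) (hℓM : ¬ ℓ ∣ M) (hℓS : ℓ ∉ (↑S : Set ℕ)),
      ∀ A : ValuationSubring (AlgebraicClosure ℚ), A.LiesOverPrime ℓ →
        ∀ σ : AlgebraicClosure ℚ ≃ₐ[ℚ] AlgebraicClosure ℚ, A.IsFrobeniusAt σ ℓ →
          LinearMap.charpoly (ρ.ρ σ) =
            X ^ 2 - C (algebraMap O' O''
              ((iota.comp chig.rangeRestrict) (CuspForm.heckeAlgebra.T hℓ hℓM hℓS))) * X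
              + C ((ℓ : O'')))
    → ρ.residual.IsAbsolutelyIrreducible ∧ ρ.residual.IsOdd

/-- **The geometric input of S36, primitive form**: for a newform `g` of level `M` and the
character `χ = iota ∘ chig`, a nonzero finite free `O'`-module `Λ` with an adically continuous
action of `G_ℚ` such that
(i) every Frobenius lift at a prime `ℓ ∤ M`, `ℓ ∉ S`, satisfies `σ² - χ(T_ℓ) σ + ℓ = 0`;
(ii) at every prime `q ≠ lam` with `q² ∥ M` there are a place `A` over `q` and `τ ∈ I_A` with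
`(τ - 1)² ≠ 0` on `Λ`. -/
def NewformInertiaLatticeStatement : Prop :=
  ∀ {M : ℕ} [NeZero M] {g : CuspForm (CongruenceSubgroup.Gamma0 M) 2} (_hg : g.IsNewform)
    (lam : ℕ) [Fact lam.Prime] (S : Finset ℕ)
    (O' : Type) [CommRing O'] [IsDomain O'] [IsDiscreteValuationRing O']
    [IsAdicComplete (IsLocalRing.maximalIdeal O') O'] [Finite (IsLocalRing.ResidueField O')]
    [CharZero O'] (_hlamO' : (lam : O') ∈ IsLocalRing.maximalIdeal O')
    (_hlam2 : lam ≠ 2)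
    (chig : CuspForm.heckeAlgebra M 2 (↑S : Set ℕ) →+* ℂ)
    (_hchig : ∀ (ℓ : ℕ) (hℓ : ℓ.Prime) (hℓM : ¬ ℓ ∣ M) (hℓS : ℓ ∉ (↑S : Set ℕ)),
      chig (CuspForm.heckeAlgebra.T hℓ hℓM hℓS) = ModularFormClass.qCoeff g ℓ)
    (iota : chig.range →+* O')
    (_hlamS : lam ∈ S) (_hMS : ∀ q : ℕ, q.Prime → q ∣ M → q ∈ S)
    (_hres : S36ResHyp lam S O' chig iota),
    ∃ (Λ : Type) (_ : AddCommGroup Λ) (_ : Module O' Λ) (_ : Module.Free O' Λ)
      (_ : Module.Finite O' Λ) (_ : Nontrivial Λ)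
      (ρ : (AlgebraicClosure ℚ ≃ₐ[ℚ] AlgebraicClosure ℚ) →* Module.End O' Λ),
      GaloisActionIsAdicContinuous O' ρ ∧
      (∀ (ℓ : ℕ) (hℓ : ℓ.Prime) (hℓM : ¬ ℓ ∣ M) (hℓS : ℓ ∉ (↑S : Set ℕ)),
        ∀ A : ValuationSubring (AlgebraicClosure ℚ), A.LiesOverPrime ℓ →
          ∀ σ : AlgebraicClosure ℚ ≃ₐ[ℚ] AlgebraicClosure ℚ, A.IsFrobeniusAt σ ℓ →
            ρ σ * ρ σ - (iota.comp chig.rangeRestrict) (CuspForm.heckeAlgebra.T hℓ hℓM hℓS) • ρ σ
              + (ℓ : O') • (1 : Module.End O' Λ) = 0) ∧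
      (∀ q : ℕ, q.Prime → q ≠ lam → M.factorization q = 2 →
        ∃ A : ValuationSubring (AlgebraicClosure ℚ), A.LiesOverPrime q ∧
          ∃ τ ∈ A.inertiaSubgroupIn ℚ, (ρ τ - 1) * (ρ τ - 1) ≠ 0)

/-- **The geometric input of S36, no-invariants form** (helper11's `(KC)`): as
`NewformInertiaLatticeStatement`, with the local clause replaced by `Λ^{I_A} = 0` for some place
`A` over `q`. -/
def NewformNoInvariantsLatticeStatement : Prop :=
  ∀ {M : ℕ} [NeZero M] {g : CuspForm (CongruenceSubgroup.Gamma0 M) 2} (_hg : g.IsNewform)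
    (lam : ℕ) [Fact lam.Prime] (S : Finset ℕ)
    (O' : Type) [CommRing O'] [IsDomain O'] [IsDiscreteValuationRing O']
    [IsAdicComplete (IsLocalRing.maximalIdeal O') O'] [Finite (IsLocalRing.ResidueField O')]
    [CharZero O'] (_hlamO' : (lam : O') ∈ IsLocalRing.maximalIdeal O')
    (_hlam2 : lam ≠ 2)
    (chig : CuspForm.heckeAlgebra M 2 (↑S : Set ℕ) →+* ℂ)
    (_hchig : ∀ (ℓ : ℕ) (hℓ : ℓ.Prime) (hℓM : ¬ ℓ ∣ M) (hℓS : ℓ ∉ (↑S : Set ℕ)),
      chig (CuspForm.heckeAlgebra.T hℓ hℓM hℓS) = ModularFormClass.qCoeff g ℓ)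
    (iota : chig.range →+* O')
    (_hlamS : lam ∈ S) (_hMS : ∀ q : ℕ, q.Prime → q ∣ M → q ∈ S)
    (_hres : S36ResHyp lam S O' chig iota),
    ∃ (Λ : Type) (_ : AddCommGroup Λ) (_ : Module O' Λ) (_ : Module.Free O' Λ)
      (_ : Module.Finite O' Λ) (_ : Nontrivial Λ)
      (ρ : (AlgebraicClosure ℚ ≃ₐ[ℚ] AlgebraicClosure ℚ) →* Module.End O' Λ),
      GaloisActionIsAdicContinuous O' ρ ∧
      (∀ (ℓ : ℕ) (hℓ : ℓ.Prime) (hℓM : ¬ ℓ ∣ M) (hℓS : ℓ ∉ (↑S : Set ℕ)),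
        ∀ A : ValuationSubring (AlgebraicClosure ℚ), A.LiesOverPrime ℓ →
          ∀ σ : AlgebraicClosure ℚ ≃ₐ[ℚ] AlgebraicClosure ℚ, A.IsFrobeniusAt σ ℓ →
            ρ σ * ρ σ - (iota.comp chig.rangeRestrict) (CuspForm.heckeAlgebra.T hℓ hℓM hℓS) • ρ σ
              + (ℓ : O') • (1 : Module.End O' Λ) = 0) ∧
      (∀ q : ℕ, q.Prime → q ≠ lam → M.factorization q = 2 →
        ∃ A : ValuationSubring (AlgebraicClosure ℚ), A.LiesOverPrime q ∧
          ∀ v : Λ, (∀ τ ∈ A.inertiaSubgroupIn ℚ, ρ τ v = v) → v = 0)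

/-- The no-invariants form implies the primitive form (quadratic Kolchin). -/
theorem inertiaLattice_of_noInvariants (h : NewformNoInvariantsLatticeStatement) :
    NewformInertiaLatticeStatement := by
  intro M _ g hg lam _ S O' _ _ _ _ _ _ hlamO' hlam2 chig hchig iota hlamS hMS hres
  obtain ⟨Λ, iA, iM, iFr, iFi, iNt, ρ, hcont, hrel, hloc⟩ :=
    h hg lam S O' hlamO' hlam2 chig hchig iota hlamS hMS hres
  refine ⟨Λ, iA, iM, iFr, iFi, iNt, ρ, hcont, hrel, ?_⟩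
  intro q hq hqlam hq2
  obtain ⟨A, hA, hinv⟩ := hloc q hq hqlam hq2
  refine ⟨A, hA, ?_⟩
  by_contra hcon
  push Not at hcon
  have h2 : ∀ v : Λ, (2 : O') • v = 0 → v = 0 := by
    intro v hv
    exact (smul_eq_zero.mp hv).resolve_left two_ne_zero
  obtain ⟨v, hv, hfix⟩ := exists_fixed_of_quadUnipotent h2 ρ (A.inertiaSubgroupIn ℚ) hcon
  exact hv (hinv v hfix)

/-- **S36 from the newform inertia lattice statement** (exactly the frozen statement of S36; the
coefficient ring is not extended: `O'' = O'`). -/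
theorem s36_of_inertiaLattice (hL : NewformInertiaLatticeStatement)
    {M : ℕ} [NeZero M] {g : CuspForm (CongruenceSubgroup.Gamma0 M) 2} (hg : g.IsNewform)
    (lam : ℕ) [Fact lam.Prime]
    (S : Finset ℕ)
    (O' : Type) [CommRing O'] [IsDomain O'] [IsDiscreteValuationRing O']
    [IsAdicComplete (IsLocalRing.maximalIdeal O') O'] [Finite (IsLocalRing.ResidueField O')]
    [CharZero O'] (hlamO' : (lam : O') ∈ IsLocalRing.maximalIdeal O')
    (hlam2 : lam ≠ 2)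
    (chig : CuspForm.heckeAlgebra M 2 (↑S : Set ℕ) →+* ℂ)
    (hchig : ∀ (ℓ : ℕ) (hℓ : ℓ.Prime) (hℓM : ¬ ℓ ∣ M) (hℓS : ℓ ∉ (↑S : Set ℕ)),
      chig (CuspForm.heckeAlgebra.T hℓ hℓM hℓS) = ModularFormClass.qCoeff g ℓ)
    (iota : chig.range →+* O')
    (hlamS : lam ∈ S) (hMS : ∀ q : ℕ, q.Prime → q ∣ M → q ∈ S)
    (hres : ∀ (O'' : Type) [CommRing O''] [IsDomain O''] [IsDiscreteValuationRing O'']
      [IsAdicComplete (IsLocalRing.maximalIdeal O'') O''] [Finite (IsLocalRing.ResidueField O'')]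
      [CharZero O'']
      [Algebra O' O''] [Module.Finite O' O''] [IsLocalHom (algebraMap O' O'')],
      Function.Injective (algebraMap O' O'') → ∀ (ρ : GaloisRepAdic O''),
      (∀ (ℓ : ℕ) (hℓ : ℓ.Prime) (hℓlam : ℓ ≠ lam) (hℓM : ¬ ℓ ∣ M) (hℓS : ℓ ∉ (↑S : Set ℕ)),
        ∀ A : ValuationSubring (AlgebraicClosure ℚ), A.LiesOverPrime ℓ →
          ∀ σ : AlgebraicClosure ℚ ≃ₐ[ℚ] AlgebraicClosure ℚ, A.IsFrobeniusAt σ ℓ →
            LinearMap.charpoly (ρ.ρ σ) =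
              X ^ 2 - C (algebraMap O' O''
                ((iota.comp chig.rangeRestrict) (CuspForm.heckeAlgebra.T hℓ hℓM hℓS))) * X
                + C ((ℓ : O'')))
      → ρ.residual.IsAbsolutelyIrreducible ∧ ρ.residual.IsOdd) :
    ∃ (O'' : Type) (_ : CommRing O'') (_ : IsDomain O'') (_ : IsDiscreteValuationRing O'')
      (_ : IsAdicComplete (IsLocalRing.maximalIdeal O'') O'')
      (_ : Finite (IsLocalRing.ResidueField O''))
      (_ : CharZero O'') (_ : Algebra O' O'') (_ : Module.Finite O' O'')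
      (_ : IsLocalHom (algebraMap O' O'')),
      Function.Injective (algebraMap O' O'') ∧
      ∃ ρ : GaloisRepAdic O'',
        (∀ (ℓ : ℕ) (hℓ : ℓ.Prime) (hℓM : ¬ ℓ ∣ M) (hℓS : ℓ ∉ (↑S : Set ℕ)),
          ∀ A : ValuationSubring (AlgebraicClosure ℚ), A.LiesOverPrime ℓ →
            ∀ σ : AlgebraicClosure ℚ ≃ₐ[ℚ] AlgebraicClosure ℚ, A.IsFrobeniusAt σ ℓ →
              LinearMap.charpoly (ρ.ρ σ) =
                X ^ 2 - C (algebraMap O' O''
                  ((iota.comp chig.rangeRestrict) (CuspForm.heckeAlgebra.T hℓ hℓM hℓS))) * X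
                  + C ((ℓ : O''))) ∧
        (∀ q : ℕ, q.Prime → q ≠ lam → M.factorization q = 2 →
          ¬ ρ.IsUnipotentOnInertiaAt q) := by
  obtain ⟨Λ, iA, iM, iFr, iFi, iNt, ρ, hcont, hrel, hloc⟩ :=
    hL hg lam S O' hlamO' hlam2 chig hchig iota hlamS hMS hres
  classical
  let χ : CuspForm.heckeAlgebra M 2 (↑S : Set ℕ) →+* O' := iota.comp chig.rangeRestrict
  -- the Frobenius traces as a function on `ℕ`
  let a : ℕ → O' := fun ℓ =>
    if h : ℓ.Prime ∧ ¬ ℓ ∣ M ∧ ℓ ∉ (↑S : Set ℕ) then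
      χ (CuspForm.heckeAlgebra.T h.1 h.2.1 h.2.2) else 0
  have ha : ∀ (ℓ : ℕ) (hℓ : ℓ.Prime) (hℓM : ¬ ℓ ∣ M) (hℓS : ℓ ∉ (↑S : Set ℕ)),
      a ℓ = χ (CuspForm.heckeAlgebra.T hℓ hℓM hℓS) := by
    intro ℓ hℓ hℓM hℓS
    show (if h : ℓ.Prime ∧ ¬ ℓ ∣ M ∧ ℓ ∉ (↑S : Set ℕ) then
      χ (CuspForm.heckeAlgebra.T h.1 h.2.1 h.2.2) else 0) = _
    rw [dif_pos ⟨hℓ, hℓM, hℓS⟩]
  have hrel' : ∀ ℓ : ℕ, ℓ.Prime → ℓ ∉ S → ∀ A : ValuationSubring (AlgebraicClosure ℚ),
      A.LiesOverPrime ℓ → ∀ σ : AlgebraicClosure ℚ ≃ₐ[ℚ] AlgebraicClosure ℚ,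
        A.IsFrobeniusAt σ ℓ →
          ρ σ * ρ σ - a ℓ • ρ σ + (ℓ : O') • (1 : Module.End O' Λ) = 0 := by
    intro ℓ hℓ hℓS A hA σ hσ
    have hℓM : ¬ ℓ ∣ M := fun h => hℓS (hMS ℓ hℓ h)
    have hℓS' : ℓ ∉ (↑S : Set ℕ) := fun h => hℓS (Finset.mem_coe.mp h)
    rw [ha ℓ hℓ hℓM hℓS']
    exact hrel ℓ hℓ hℓM hℓS' A hA σ hσ
  obtain ⟨ρ', t, ht, hcp, htgood, -⟩ :=
    exists_galoisRepAdic_of_lattice_full lam hlamO' S hlamS a ρ hcont hrel'
  refine ⟨O', inferInstance, inferInstance, inferInstance, inferInstance, inferInstance,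
    inferInstance, Algebra.id O', ?_, ?_, ?_, ρ', ?_, ?_⟩
  · exact Module.Finite.self O'
  · exact ⟨fun x hx => hx⟩
  · exact fun x y h => h
  · intro ℓ hℓ hℓM hℓS A hA σ hσ
    have hℓS' : ℓ ∉ S := fun h => hℓS (Finset.mem_coe.mpr h)
    have hℓp : ℓ ≠ lam := fun h => hℓS' (h ▸ hlamS)
    rw [hcp σ, htgood ℓ hℓ hℓS' A hA σ hσ, ha ℓ hℓ hℓM hℓS,
      localCyclo_frobenius lam O' hlamO' hℓ hℓp hA hσ]
    rfl
  · intro q hq hqlam hq2 hunip
    obtain ⟨A, hA, τ, hτ, hne⟩ := hloc q hq hqlam hq2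
    apply hne
    have hcyc : ((localCyclo lam O' hlamO' τ : O'ˣ) : O') = 1 := by
      rw [localCyclo_inertia lam O' hlamO' hq hqlam hA hτ]
      rfl
    have h1 := hunip A hA τ hτ
    rw [hcp τ, hcyc] at h1
    -- compare the coefficients of `X`
    have h3 : t τ = 2 := by
      have := congrArg (fun P : O'[X] => P.coeff 1) h1
      have e : ((X : O'[X]) - 1) ^ 2 = X ^ 2 - C (2 : O') * X + C 1 := by
        rw [map_ofNat, map_one]; ring
      rw [e] at this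
      simp only [coeff_add, coeff_sub, coeff_X_pow, coeff_C_mul, coeff_X_one, coeff_C] at this
      simpa using this
    have hrelτ := ht τ
    rw [hcyc, h3] at hrelτ
    have e2 : (ρ τ - 1) * (ρ τ - 1)
        = ρ τ * ρ τ - (2 : O') • ρ τ + (1 : O') • (1 : Module.End O' Λ) := by
      rw [one_smul, two_smul]
      noncomm_ring
    rw [e2, hrelτ]

/-- **S36 from the no-invariants lattice statement.** -/
theorem s36_of_noInvariants (hL : NewformNoInvariantsLatticeStatement)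
    {M : ℕ} [NeZero M] {g : CuspForm (CongruenceSubgroup.Gamma0 M) 2} (hg : g.IsNewform)
    (lam : ℕ) [Fact lam.Prime]
    (S : Finset ℕ)
    (O' : Type) [CommRing O'] [IsDomain O'] [IsDiscreteValuationRing O']
    [IsAdicComplete (IsLocalRing.maximalIdeal O') O'] [Finite (IsLocalRing.ResidueField O')]
    [CharZero O'] (hlamO' : (lam : O') ∈ IsLocalRing.maximalIdeal O')
    (hlam2 : lam ≠ 2)
    (chig : CuspForm.heckeAlgebra M 2 (↑S : Set ℕ) →+* ℂ)
    (hchig : ∀ (ℓ : ℕ) (hℓ : ℓ.Prime) (hℓM : ¬ ℓ ∣ M) (hℓS : ℓ ∉ (↑S : Set ℕ)),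
      chig (CuspForm.heckeAlgebra.T hℓ hℓM hℓS) = ModularFormClass.qCoeff g ℓ)
    (iota : chig.range →+* O')
    (hlamS : lam ∈ S) (hMS : ∀ q : ℕ, q.Prime → q ∣ M → q ∈ S)
    (hres : ∀ (O'' : Type) [CommRing O''] [IsDomain O''] [IsDiscreteValuationRing O'']
      [IsAdicComplete (IsLocalRing.maximalIdeal O'') O''] [Finite (IsLocalRing.ResidueField O'')]
      [CharZero O'']
      [Algebra O' O''] [Module.Finite O' O''] [IsLocalHom (algebraMap O' O'')],
      Function.Injective (algebraMap O' O'') → ∀ (ρ : GaloisRepAdic O''),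
      (∀ (ℓ : ℕ) (hℓ : ℓ.Prime) (hℓlam : ℓ ≠ lam) (hℓM : ¬ ℓ ∣ M) (hℓS : ℓ ∉ (↑S : Set ℕ)),
        ∀ A : ValuationSubring (AlgebraicClosure ℚ), A.LiesOverPrime ℓ →
          ∀ σ : AlgebraicClosure ℚ ≃ₐ[ℚ] AlgebraicClosure ℚ, A.IsFrobeniusAt σ ℓ →
            LinearMap.charpoly (ρ.ρ σ) =
              X ^ 2 - C (algebraMap O' O''
                ((iota.comp chig.rangeRestrict) (CuspForm.heckeAlgebra.T hℓ hℓM hℓS))) * X
                + C ((ℓ : O'')))
      → ρ.residual.IsAbsolutelyIrreducible ∧ ρ.residual.IsOdd) :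
    ∃ (O'' : Type) (_ : CommRing O'') (_ : IsDomain O'') (_ : IsDiscreteValuationRing O'')
      (_ : IsAdicComplete (IsLocalRing.maximalIdeal O'') O'')
      (_ : Finite (IsLocalRing.ResidueField O''))
      (_ : CharZero O'') (_ : Algebra O' O'') (_ : Module.Finite O' O'')
      (_ : IsLocalHom (algebraMap O' O'')),
      Function.Injective (algebraMap O' O'') ∧
      ∃ ρ : GaloisRepAdic O'',
        (∀ (ℓ : ℕ) (hℓ : ℓ.Prime) (hℓM : ¬ ℓ ∣ M) (hℓS : ℓ ∉ (↑S : Set ℕ)),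
          ∀ A : ValuationSubring (AlgebraicClosure ℚ), A.LiesOverPrime ℓ →
            ∀ σ : AlgebraicClosure ℚ ≃ₐ[ℚ] AlgebraicClosure ℚ, A.IsFrobeniusAt σ ℓ →
              LinearMap.charpoly (ρ.ρ σ) =
                X ^ 2 - C (algebraMap O' O''
                  ((iota.comp chig.rangeRestrict) (CuspForm.heckeAlgebra.T hℓ hℓM hℓS))) * X
                  + C ((ℓ : O''))) ∧
        (∀ q : ℕ, q.Prime → q ≠ lam → M.factorization q = 2 →
          ¬ ρ.IsUnipotentOnInertiaAt q) :=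
  s36_of_inertiaLattice (inertiaLattice_of_noInvariants hL) hg lam S O' hlamO' hlam2 chig hchig
    iota hlamS hMS hres

end Fermat.Agent.H46.SS2
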